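import Mathlib

/-!
# S22: `Γ₀(N)` is a finitely generated group (for `N ≠ 0`).
-/

set_option autoImplicit false
set_option linter.style.haveILetI false

namespace Fermat.Agent.S22

open CongruenceSubgroup
open scoped MatrixGroups

/-- `SL(2, ℤ)` is a finitely generated group (generated by `S` and `T`). -/
theorem groupFG_SL2Z : Group.FG SL(2, ℤ) := by
  rw [Group.fg_def]
  refine ⟨{ModularGroup.S, ModularGroup.T}, ?_⟩
  have := SpecialLinearGroup.SL2Z_generators
  simpa using this

/-- `Γ₀(N)` is a finitely generated group. -/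
theorem groupFG_Gamma0 (N : ℕ) [NeZero N] : Group.FG (Gamma0 N) := by
  haveI := groupFG_SL2Z
  infer_instance

/-- A finite generating set of `Γ₀(N)`, as a set of elements of `SL(2, ℤ)`. -/
theorem exists_finset_closure_eq_Gamma0 (N : ℕ) [NeZero N] :
    ∃ s : Finset SL(2, ℤ), Subgroup.closure (s : Set SL(2, ℤ)) = Gamma0 N := by
  have h := groupFG_Gamma0 N
  rw [Group.fg_iff_subgroup_fg] at h
  exact h

end Fermat.Agent.S22
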