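import Fermat.Agent.S22.HeckeAbs
import Fermat.Prelude.Sol.S_ModularForm_heckeT_slash_eq_self_of_mem_Gamma0

/-!
# Coset bookkeeping for the Hecke representatives

For `g ∈ Γ₀(N)` and the standard representatives `α_x` of the Hecke operators `T_p` (`p ∤ N`)
and `U_p` (`p ∣ N`) there are a permutation `σ` of the index set and elements `g'_x ∈ Γ₀(N)`
with `α_x g = g'_x α_{σ x}`.
-/

set_option autoImplicit false

namespace Fermat.Agent.S22

open UpperHalfPlane CongruenceSubgroup Matrix.SpecialLinearGroup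

open scoped MatrixGroups ModularForm

open P2MW.S_ModularForm_heckeT_slash_eq_self_of_mem_Gamma0.ModularForm.HeckeSlashInvariance

/-- Entry identities extracted from a matrix identity `A g = g' A'` for upper triangular
integer matrices `A`, `A'`. -/
lemma coset_entries {A A' : GL (Fin 2) ℝ} {a b d a' b' d' : ℤ}
    (hA : (A : Matrix (Fin 2) (Fin 2) ℝ) = !![(a : ℝ), (b : ℝ); 0, (d : ℝ)])
    (hA' : (A' : Matrix (Fin 2) (Fin 2) ℝ) = !![(a' : ℝ), (b' : ℝ); 0, (d' : ℝ)])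
    {g g' : SL(2, ℤ)} (h : A * mapGL ℝ g = mapGL ℝ g' * A') :
    a * g 0 0 + b * g 1 0 = g' 0 0 * a' ∧
    a * g 0 1 + b * g 1 1 = g' 0 0 * b' + g' 0 1 * d' ∧
    d * g 1 0 = g' 1 0 * a' ∧
    d * g 1 1 = g' 1 0 * b' + g' 1 1 * d' := by
  have key : ∀ i j : Fin 2,
      ((A * mapGL ℝ g : GL (Fin 2) ℝ) : Matrix (Fin 2) (Fin 2) ℝ) i j =
      ((mapGL ℝ g' * A' : GL (Fin 2) ℝ) : Matrix (Fin 2) (Fin 2) ℝ) i j := by
    intro i j
    rw [h]
  have h00 := key 0 0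
  have h01 := key 0 1
  have h10 := key 1 0
  have h11 := key 1 1
  simp only [Matrix.GeneralLinearGroup.coe_mul, Matrix.mul_apply, Fin.sum_univ_two, hA, hA',
    Matrix.of_apply, Matrix.cons_val', Matrix.cons_val_zero, Matrix.cons_val_one,
    Matrix.cons_val_fin_one] at h00 h01 h10 h11
  simp at h00 h01 h10 h11
  refine ⟨?_, ?_, ?_, ?_⟩
  · exact_mod_cast h00
  · exact_mod_cast h01
  · exact_mod_cast h10
  · exact_mod_cast h11

/-- The entries of the representatives of `T_p`. -/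
lemma val_heckeRep {p : ℕ} (hp : p ≠ 0) (x : OnePoint (ZMod p)) :
    ((heckeRep p x : GL (Fin 2) ℝ) : Matrix (Fin 2) (Fin 2) ℝ)
      = !![((tA p x : ℤ) : ℝ), ((tB p x : ℤ) : ℝ); 0, ((tD p x : ℤ) : ℝ)] := by
  induction x using OnePoint.rec with
  | infty =>
    rw [heckeRep_infty, ModularForm.val_heckeDiagMatrix hp]
    simp
  | coe j =>
    rw [heckeRep_coe, ModularForm.val_heckeMatrix hp]
    simp

theorem coset_T {N p : ℕ} [Fact p.Prime] (hpN : ¬ p ∣ N) {g : SL(2, ℤ)} (hg : g ∈ Gamma0 N) :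
    ∃ (σ : Equiv.Perm (OnePoint (ZMod p))) (g' : OnePoint (ZMod p) → SL(2, ℤ)),
      (∀ x, g' x ∈ Gamma0 N) ∧ ∀ x,
        tA p x * g 0 0 + tB p x * g 1 0 = g' x 0 0 * tA p (σ x) ∧
        tA p x * g 0 1 + tB p x * g 1 1 = g' x 0 0 * tB p (σ x) + g' x 0 1 * tD p (σ x) ∧
        tD p x * g 1 0 = g' x 1 0 * tA p (σ x) ∧
        tD p x * g 1 1 = g' x 1 0 * tB p (σ x) + g' x 1 1 * tD p (σ x) := by
  have hp : p ≠ 0 := (Fact.out : p.Prime).ne_zero
  have hcN : (N : ℤ) ∣ g 1 0 :=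
    (ZMod.intCast_zmod_eq_zero_iff_dvd _ _).mp (Gamma0_mem.mp hg)
  choose g' hg' hmul using fun x => heckeRep_mul hpN g hcN x
  refine ⟨MulAction.toPerm (redMatrix p g), g', fun x => ?_, fun x => ?_⟩
  · exact Gamma0_mem.mpr ((ZMod.intCast_zmod_eq_zero_iff_dvd _ _).mpr (hg' x))
  · exact coset_entries (val_heckeRep hp x) (val_heckeRep hp _) (hmul x)

theorem coset_U {N p : ℕ} [NeZero p] (hpN : p ∣ N) {g : SL(2, ℤ)} (hg : g ∈ Gamma0 N) :
    ∃ (σ : Equiv.Perm (ZMod p)) (g' : ZMod p → SL(2, ℤ)),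
      (∀ x, g' x ∈ Gamma0 N) ∧ ∀ x,
        uA p x * g 0 0 + uB p x * g 1 0 = g' x 0 0 * uA p (σ x) ∧
        uA p x * g 0 1 + uB p x * g 1 1 = g' x 0 0 * uB p (σ x) + g' x 0 1 * uD p (σ x) ∧
        uD p x * g 1 0 = g' x 1 0 * uA p (σ x) ∧
        uD p x * g 1 1 = g' x 1 0 * uB p (σ x) + g' x 1 1 * uD p (σ x) := by
  have hp : p ≠ 0 := NeZero.ne p
  have hcN : (N : ℤ) ∣ g 1 0 :=
    (ZMod.intCast_zmod_eq_zero_iff_dvd _ _).mp (Gamma0_mem.mp hg)
  have hc : (p : ℤ) ∣ g 1 0 := (Int.natCast_dvd_natCast.mpr hpN).trans hcN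
  have hc0 : ((g 1 0 : ℤ) : ZMod p) = 0 := (ZMod.intCast_zmod_eq_zero_iff_dvd _ _).mpr hc
  choose g' hg' hmul using fun x => heckeMatrix_mul_of_dvd g hc x
  refine ⟨affinePerm g hc0, g', fun x => ?_, fun x => ?_⟩
  · rw [Gamma0_mem, hg' x]
    push_cast
    rw [Gamma0_mem.mp hg, mul_zero]
  · have hA : ((ModularForm.heckeMatrix p x.val : GL (Fin 2) ℝ) : Matrix (Fin 2) (Fin 2) ℝ)
        = !![((uA p x : ℤ) : ℝ), ((uB p x : ℤ) : ℝ); 0, ((uD p x : ℤ) : ℝ)] := by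
      rw [ModularForm.val_heckeMatrix hp]
      simp [uA, uB, uD]
    have hA' : ((ModularForm.heckeMatrix p (affinePerm g hc0 x).val : GL (Fin 2) ℝ) :
        Matrix (Fin 2) (Fin 2) ℝ)
        = !![((uA p (affinePerm g hc0 x) : ℤ) : ℝ), ((uB p (affinePerm g hc0 x) : ℤ) : ℝ);
            0, ((uD p (affinePerm g hc0 x) : ℤ) : ℝ)] := by
      rw [ModularForm.val_heckeMatrix hp]
      simp [uA, uB, uD]
    exact coset_entries hA hA' (hmul x)

end Fermat.Agent.S22
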