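import Fermat.Agent.S22.HeckeAbs

/-!
# Normalised primitives of Hecke translates

For an upper triangular integer matrix `α = [a, b; 0, d]` with `a, d > 0` and a good function
`f` on the upper half plane, the function
`z ↦ nprim (pf (adjAct m a b d P) f) (affS a b d z)` is the normalised primitive of
`P · (f ∣[m + 2] α)`.  Summing over the representatives of the Hecke operators
`T_p` and `U_p` we obtain the normalised primitives of `P · T_p f` and `P · U_p f`.
-/

set_option autoImplicit false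

namespace Fermat.Agent.S22

open UpperHalfPlane Complex Polynomial CongruenceSubgroup Filter Topology

open scoped MatrixGroups ModularForm

/-- The normalised primitive of `P · fα`, where `fα τ = a ^ (m + 1) / d * f ((a τ + b) / d)`
is the weight `m + 2` slash of `f` by `[a, b; 0, d]`. -/
theorem isNP_upper {m : ℕ} {f fα : ℍ → ℂ} (hf : GoodH f) {a d : ℤ} (ha : 0 < a) (hd : 0 < d)
    (b : ℤ)
    (hslash : ∀ τ : ℍ, fα τ = (a : ℂ) ^ (m + 1) * (d : ℂ)⁻¹ * toC f (affS a b d τ))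
    {P : ℂ[X]} (hP : P.natDegree ≤ m) :
    IsNP (pf P fα) (fun z => nprim (pf (adjAct m a b d P) f) (affS a b d z)) := by
  have haR : (0 : ℝ) < (a : ℝ) := by exact_mod_cast ha
  have hdR : (0 : ℝ) < (d : ℝ) := by exact_mod_cast hd
  have haC : (a : ℂ) ≠ 0 := by exact_mod_cast ha.ne'
  have hdC : (d : ℂ) ≠ 0 := by exact_mod_cast hd.ne'
  have hr : (0 : ℝ) < (a : ℝ) / (d : ℝ) := div_pos haR hdR
  have H := (isNP_nprim (hf.good_pf (adjAct m a b d P))).comp_affine hr ((b : ℝ) / (d : ℝ))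
  have haff : ∀ z : ℂ, (((a : ℝ) / (d : ℝ) : ℝ) : ℂ) * z + (((b : ℝ) / (d : ℝ) : ℝ) : ℂ)
      = affS a b d z := by
    intro z
    rw [affS_apply]
    push_cast
    field_simp
  simp only [haff] at H
  refine H.congr fun z hz => ?_
  have hw : affS a b d z ∈ UHP := affS_mem_UHP ha hd b hz
  -- evaluate the polynomial
  have hne : ((((0 : ℤ) : ℝ) : ℂ)) * affS a b d z + (((a : ℤ) : ℝ) : ℂ) ≠ 0 := by
    simpa using haC
  have hev : (adjAct m a b d P).eval (affS a b d z) = (a : ℂ) ^ m * P.eval z := by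
    unfold adjAct
    rw [eval_polyAct _ _ _ _ hP hne]
    have e1 : ((((0 : ℤ) : ℝ) : ℂ)) * affS a b d z + (((a : ℤ) : ℝ) : ℂ) = (a : ℂ) := by
      simp
    have e2 : ((((d : ℤ) : ℝ) : ℂ)) * affS a b d z + ((((-b : ℤ)) : ℝ) : ℂ) = (a : ℂ) * z := by
      rw [affS_apply]
      push_cast
      field_simp
      ring
    rw [e1, e2, mul_div_cancel_left₀ _ haC]
  have hfα : toC fα z = (a : ℂ) ^ (m + 1) * (d : ℂ)⁻¹ * toC f (affS a b d z) := by
    have := hslash ⟨z, hz⟩
    rw [toC_apply fα hz, this]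
  show (((a : ℝ) / (d : ℝ) : ℝ) : ℂ) * pf (adjAct m a b d P) f (affS a b d z) = pf P fα z
  unfold pf
  rw [hev, hfα]
  push_cast
  field_simp
  ring

/-- `isNP_upper` for the representative `[1, j; 0, p]`. -/
theorem isNP_heckeMatrix {m : ℕ} {f : ℍ → ℂ} (hf : GoodH f) {p : ℕ} (hp : p ≠ 0) (j : ℕ)
    {P : ℂ[X]} (hP : P.natDegree ≤ m) :
    IsNP (pf P (f ∣[(m : ℤ) + 2] ModularForm.heckeMatrix p j))
      (fun z => nprim (pf (adjAct m 1 (j : ℤ) (p : ℤ) P) f) (affS 1 (j : ℤ) (p : ℤ) z)) := by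
  have hp0 : (0 : ℤ) < (p : ℤ) := by exact_mod_cast Nat.pos_of_ne_zero hp
  refine isNP_upper hf one_pos hp0 (j : ℤ) (fun τ => ?_) hP
  rw [ModularForm.slash_heckeMatrix_apply _ hp, ← toC_coe f (ModularForm.heckeMatrix p j • τ),
    ModularForm.coe_heckeMatrix_smul hp, affS_apply]
  simp

/-- `isNP_upper` for the representative `[p, 0; 0, 1]`. -/
theorem isNP_heckeDiagMatrix {m : ℕ} {f : ℍ → ℂ} (hf : GoodH f) {p : ℕ} (hp : p ≠ 0)
    {P : ℂ[X]} (hP : P.natDegree ≤ m) :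
    IsNP (pf P (f ∣[(m : ℤ) + 2] ModularForm.heckeDiagMatrix p))
      (fun z => nprim (pf (adjAct m (p : ℤ) 0 1 P) f) (affS (p : ℤ) 0 1 z)) := by
  have hp0 : (0 : ℤ) < (p : ℤ) := by exact_mod_cast Nat.pos_of_ne_zero hp
  refine isNP_upper hf hp0 one_pos 0 (fun τ => ?_) hP
  rw [ModularForm.slash_heckeDiagMatrix_apply _ hp, ← toC_coe f (ModularForm.heckeDiagMatrix p • τ),
    ModularForm.coe_heckeDiagMatrix_smul hp, affS_apply]
  have e : ((m : ℤ) + 2 - 1) = ((m + 1 : ℕ) : ℤ) := by push_cast; ring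
  rw [e, zpow_natCast]
  simp

/-- The normalised primitive of `P · U_p f`. -/
theorem isNP_heckeU {m : ℕ} {f : ℍ → ℂ} (hf : GoodH f) {p : ℕ} [NeZero p]
    {P : ℂ[X]} (hP : P.natDegree ≤ m) :
    IsNP (pf P (ModularForm.heckeU ((m : ℤ) + 2) p f))
      (fun z => ∑ x : ZMod p,
        nprim (pf (adjAct m (uA p x) (uB p x) (uD p x) P) f) (affS (uA p x) (uB p x) (uD p x) z)) := by
  have hp : p ≠ 0 := NeZero.ne p
  have H := IsNP.sum (Finset.univ : Finset (ZMod p))
    (h := fun x => pf P (f ∣[(m : ℤ) + 2] ModularForm.heckeMatrix p x.val))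
    (G := fun x z => nprim (pf (adjAct m (uA p x) (uB p x) (uD p x) P) f)
      (affS (uA p x) (uB p x) (uD p x) z))
    (fun x _ => isNP_heckeMatrix hf hp x.val hP)
  refine H.congr fun z hz => ?_
  have e : ModularForm.heckeU ((m : ℤ) + 2) p f
      = ∑ x : ZMod p, f ∣[(m : ℤ) + 2] ModularForm.heckeMatrix p x.val := by
    rw [ModularForm.heckeU_def]
    refine Finset.sum_nbij' (fun j : ℕ => (j : ZMod p)) (fun x : ZMod p => x.val)
      (fun _ _ => Finset.mem_univ _) (fun x _ => Finset.mem_range.mpr x.val_lt)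
      (fun j hj => ?_) (fun x _ => ?_) (fun j hj => ?_)
    · exact ZMod.val_cast_of_lt (Finset.mem_range.mp hj)
    · exact ZMod.natCast_zmod_val x
    · rw [ZMod.val_cast_of_lt (Finset.mem_range.mp hj)]
  simp only [pf, toC, e, Finset.sum_apply, Finset.mul_sum]

/-- The normalised primitive of `P · T_p f`. -/
theorem isNP_heckeT {m : ℕ} {f : ℍ → ℂ} (hf : GoodH f) {p : ℕ} [NeZero p]
    {P : ℂ[X]} (hP : P.natDegree ≤ m) :
    IsNP (pf P (ModularForm.heckeT ((m : ℤ) + 2) p f))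
      (fun z => ∑ x : OnePoint (ZMod p),
        nprim (pf (adjAct m (tA p x) (tB p x) (tD p x) P) f) (affS (tA p x) (tB p x) (tD p x) z)) := by
  have hp : p ≠ 0 := NeZero.ne p
  have H := (isNP_heckeDiagMatrix hf hp hP).add (isNP_heckeU hf (p := p) hP)
  have e2 : (fun z => ∑ x : OnePoint (ZMod p),
        nprim (pf (adjAct m (tA p x) (tB p x) (tD p x) P) f) (affS (tA p x) (tB p x) (tD p x) z))
      = fun z => nprim (pf (adjAct m (p : ℤ) 0 1 P) f) (affS (p : ℤ) 0 1 z)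
        + ∑ x : ZMod p, nprim (pf (adjAct m (uA p x) (uB p x) (uD p x) P) f)
            (affS (uA p x) (uB p x) (uD p x) z) := by
    funext z
    exact Fintype.sum_option (fun x : OnePoint (ZMod p) =>
      nprim (pf (adjAct m (tA p x) (tB p x) (tD p x) P) f) (affS (tA p x) (tB p x) (tD p x) z))
  rw [e2]
  refine H.congr fun z hz => ?_
  simp only [pf, toC, ModularForm.heckeT_eq_heckeU_add, Pi.add_apply]
  ring

/-- **[F1]** The normalised primitive of `P · T_p f` for a cusp form `f`. -/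
theorem nprim_heckeT {N p m : ℕ} [Fact p.Prime] (hpN : ¬ p ∣ N)
    (f : CuspForm (Gamma0 N) ((m : ℤ) + 2)) {P : ℂ[X]} (hP : P.natDegree ≤ m) {z : ℂ}
    (hz : z ∈ UHP) :
    nprim (pf P ⇑(CuspForm.heckeTLin ((m : ℤ) + 2) (Fact.out : p.Prime) hpN f)) z =
      ∑ x : OnePoint (ZMod p),
        nprim (pf (adjAct m (tA p x) (tB p x) (tD p x) P) ⇑f)
          (affS (tA p x) (tB p x) (tD p x) z) := by
  have : NeZero p := ⟨(Fact.out : p.Prime).ne_zero⟩
  have H := isNP_heckeT (goodH_cuspForm f) (p := p) hP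
  have hg := (goodH_cuspForm (CuspForm.heckeTLin ((m : ℤ) + 2) (Fact.out : p.Prime) hpN f)).good_pf P
  rw [CuspForm.coe_heckeTLin_apply] at hg ⊢
  exact (H.eq_nprim hg hz).symm

/-- **[F1]** The normalised primitive of `P · U_p f` for a cusp form `f`. -/
theorem nprim_heckeU {N p m : ℕ} [NeZero N] [NeZero p] (hpN : p ∣ N)
    (f : CuspForm (Gamma0 N) ((m : ℤ) + 2)) {P : ℂ[X]} (hP : P.natDegree ≤ m) {z : ℂ}
    (hz : z ∈ UHP) :
    nprim (pf P ⇑(CuspForm.heckeULin ((m : ℤ) + 2) hpN f)) z =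
      ∑ x : ZMod p,
        nprim (pf (adjAct m (uA p x) (uB p x) (uD p x) P) ⇑f)
          (affS (uA p x) (uB p x) (uD p x) z) := by
  have H := isNP_heckeU (goodH_cuspForm f) (p := p) hP
  have hg := (goodH_cuspForm (CuspForm.heckeULin ((m : ℤ) + 2) hpN f)).good_pf P
  rw [CuspForm.coe_heckeULin_apply] at hg ⊢
  exact (H.eq_nprim hg hz).symm

end Fermat.Agent.S22
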