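import Fermat.Agent.S22.Period
import Fermat.Agent.S22.GammaFG

/-!
# S22, WP-E: the period lattice is finitely generated

The period lattice `perLattice N m` is spanned over `ℤ` by the finitely many functionals
`perFun N m g (X ^ i)`, where `g` runs through a finite generating set of `Γ₀(N)` and `i ≤ m`.
-/

set_option autoImplicit false

namespace Fermat.Agent.S22

open UpperHalfPlane Complex Polynomial CongruenceSubgroup

open scoped MatrixGroups ModularForm

variable {N : ℕ}

/-- The finite set of generating period functionals attached to a finite set `s` of matrices. -/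
noncomputable def perGenSet (N m : ℕ) (s : Finset SL(2, ℤ)) :
    Set (CuspForm (Gamma0 N) ((m : ℤ) + 2) →ₗ[ℂ] ℂ) :=
  (fun p : SL(2, ℤ) × ℕ => perFun N m p.1 (X ^ p.2)) '' (s ×ˢ Finset.range (m + 1) : Finset _)

lemma perGenSet_finite (N m : ℕ) (s : Finset SL(2, ℤ)) : (perGenSet N m s).Finite :=
  (Finset.finite_toSet _).image _

lemma perFun_monomial_mem_perGenSet {m : ℕ} {s : Finset SL(2, ℤ)} {g : SL(2, ℤ)} (hg : g ∈ s)
    {i : ℕ} (hi : i ≤ m) : perFun N m g (X ^ i) ∈ perGenSet N m s :=
  ⟨(g, i), by simp [hg, Nat.lt_succ_of_le hi], rfl⟩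

/-- Reduction to monomials: if all `perFun g (X ^ i)`, `i ≤ m`, lie in a `ℤ`-submodule `L`, then
so does `perFun g P` for every integral polynomial `P` of degree `≤ m`. -/
lemma perFun_mem_of_monomials {m : ℕ} (L : Submodule ℤ (CuspForm (Gamma0 N) ((m : ℤ) + 2) →ₗ[ℂ] ℂ))
    (g : SL(2, ℤ)) (h : ∀ i ≤ m, perFun N m g (X ^ i) ∈ L) {P : ℂ[X]} (hP : P ∈ IntPoly m) :
    perFun N m g P ∈ L := by
  obtain ⟨q, rfl⟩ := IntPoly.eq_sum hP
  rw [perFun_sum_poly]
  refine L.sum_mem fun i hi => ?_
  have hi' : i ≤ m := Nat.lt_succ_iff.mp (Finset.mem_range.mp hi)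
  rw [perFun_C_mul_poly, Int.cast_smul_eq_zsmul]
  exact L.smul_mem _ (h i hi')

/-- Key step: closure induction along a generating set. -/
lemma perFun_mem_span_perGenSet {m : ℕ} {s : Finset SL(2, ℤ)}
    (hs : Subgroup.closure (s : Set SL(2, ℤ)) = Gamma0 N) {g : SL(2, ℤ)} (hg : g ∈ Gamma0 N) :
    ∀ P ∈ IntPoly m, perFun N m g P ∈ Submodule.span ℤ (perGenSet N m s) := by
  rw [← hs] at hg
  induction hg using Subgroup.closure_induction with
  | mem x hx =>
    intro P hP
    exact perFun_mem_of_monomials _ x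
      (fun i hi => Submodule.subset_span (perFun_monomial_mem_perGenSet hx hi)) hP
  | one =>
    intro P hP
    rw [perFun_one (IntPoly.natDegree_le hP)]
    exact Submodule.zero_mem _
  | mul x y hx hy ihx ihy =>
    intro P hP
    have hx' : x ∈ Gamma0 N := hs ▸ hx
    rw [perFun_mul hx' y (IntPoly.natDegree_le hP)]
    exact Submodule.add_mem _ (ihx P hP) (ihy _ (actS_mem_IntPoly x hP))
  | inv x hx ihx =>
    intro P hP
    have hx' : x ∈ Gamma0 N := hs ▸ hx
    -- `P' = x⁻¹ ⋆ P`, so that `x ⋆ P' = P`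
    have hP' : actS m x⁻¹ P ∈ IntPoly m := actS_mem_IntPoly x⁻¹ hP
    have hback : actS m x (actS m x⁻¹ P) = P := by
      rw [← actS_mul x⁻¹ x (IntPoly.natDegree_le hP), inv_mul_cancel, actS_one (IntPoly.natDegree_le hP)]
    have h0 : perFun N m (x * x⁻¹) (actS m x⁻¹ P) = 0 := by
      rw [mul_inv_cancel]; exact perFun_one (IntPoly.natDegree_le hP')
    rw [perFun_mul hx' x⁻¹ (IntPoly.natDegree_le hP'), hback] at h0
    have : perFun N m x⁻¹ P = -perFun N m x (actS m x⁻¹ P) :=
      eq_neg_of_add_eq_zero_right h0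
    rw [this]
    exact Submodule.neg_mem _ (ihx _ hP')

/-- The period lattice equals the span of the finitely many generating functionals. -/
theorem perLattice_eq_span_perGenSet {m : ℕ} {s : Finset SL(2, ℤ)}
    (hs : Subgroup.closure (s : Set SL(2, ℤ)) = Gamma0 N) :
    perLattice N m = Submodule.span ℤ (perGenSet N m s) := by
  apply le_antisymm
  · refine Submodule.span_le.mpr ?_
    rintro φ ⟨g, hg, P, hP, rfl⟩
    exact perFun_mem_span_perGenSet hs hg P hP
  · refine Submodule.span_le.mpr ?_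
    rintro φ ⟨⟨g, i⟩, hgi, rfl⟩
    have hgi' : g ∈ s ∧ i < m + 1 := by simpa using hgi
    have hg : g ∈ Gamma0 N := by
      rw [← hs]; exact Subgroup.subset_closure hgi'.1
    exact perFun_mem_perLattice hg (X_pow_mem_IntPoly (Nat.lt_succ_iff.mp hgi'.2))

/-- **WP-E**: the period lattice is a finitely generated `ℤ`-module. -/
theorem perLattice_fg (N m : ℕ) [NeZero N] : (perLattice N m).FG := by
  obtain ⟨s, hs⟩ := exists_finset_closure_eq_Gamma0 N
  rw [perLattice_eq_span_perGenSet hs]
  exact Submodule.fg_span (perGenSet_finite N m s)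

end Fermat.Agent.S22
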