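import Fermat.Agent.S22.HeckeAbs
import Fermat.Agent.S22.LatticeFG
import Fermat.Agent.S22.HeckeNP
import Fermat.Agent.S22.Coset

/-!
# Hecke stability of the period lattice
-/

set_option autoImplicit false

namespace Fermat.Agent.S22

open UpperHalfPlane Complex Polynomial CongruenceSubgroup

open scoped MatrixGroups ModularForm

variable {N : ℕ} [NeZero N] {m : ℕ}

/-- `perFun g P ∘ T_p` is a sum of period functionals. -/
theorem perFun_comp_heckeT {p : ℕ} [Fact p.Prime] (hpN : ¬ p ∣ N) {g : SL(2, ℤ)}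
    (hg : g ∈ Gamma0 N) {P : ℂ[X]} (hP : P ∈ IntPoly m) :
    (perFun N m g P).comp (CuspForm.heckeTLin ((m : ℤ) + 2) (Fact.out : p.Prime) hpN)
      ∈ perLattice N m := by
  have hp : 0 < p := (Fact.out : p.Prime).pos
  obtain ⟨σ, g', hg', hmat⟩ := coset_T hpN hg
  have key : (perFun N m g P).comp (CuspForm.heckeTLin ((m : ℤ) + 2) (Fact.out : p.Prime) hpN) =
      ∑ x : OnePoint (ZMod p), perFun N m (g' x) (adjAct m (tA p x) (tB p x) (tD p x) P) := by
    ext f
    simp only [LinearMap.comp_apply, perFun_apply, LinearMap.coe_sum, Finset.sum_apply]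
    exact per_hecke_abstract (tA p) (tB p) (tD p) (tA_pos hp) (tD_pos hp) (goodH_cuspForm f)
      (fun Q hQ z hz => nprim_heckeT hpN f hQ hz) g σ g'
      (fun x τ => cuspForm_smul_eq' f (hg' x) τ) hmat (IntPoly.natDegree_le hP)
  rw [key]
  exact Submodule.sum_mem _ fun x _ =>
    perFun_mem_perLattice (hg' x) (adjAct_mem_IntPoly _ _ _ hP)

/-- `perFun g P ∘ U_p` is a sum of period functionals. -/
theorem perFun_comp_heckeU {p : ℕ} [NeZero p] (hpN : p ∣ N) {g : SL(2, ℤ)}
    (hg : g ∈ Gamma0 N) {P : ℂ[X]} (hP : P ∈ IntPoly m) :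
    (perFun N m g P).comp (CuspForm.heckeULin ((m : ℤ) + 2) hpN) ∈ perLattice N m := by
  have hp : 0 < p := Nat.pos_of_ne_zero (NeZero.ne p)
  obtain ⟨σ, g', hg', hmat⟩ := coset_U hpN hg
  have key : (perFun N m g P).comp (CuspForm.heckeULin ((m : ℤ) + 2) hpN) =
      ∑ x : ZMod p, perFun N m (g' x) (adjAct m (uA p x) (uB p x) (uD p x) P) := by
    ext f
    simp only [LinearMap.comp_apply, perFun_apply, LinearMap.coe_sum, Finset.sum_apply]
    exact per_hecke_abstract (uA p) (uB p) (uD p) (uA_pos p) (uD_pos hp) (goodH_cuspForm f)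
      (fun Q hQ z hz => nprim_heckeU hpN f hQ hz) g σ g'
      (fun x τ => cuspForm_smul_eq' f (hg' x) τ) hmat (IntPoly.natDegree_le hP)
  rw [key]
  exact Submodule.sum_mem _ fun x _ =>
    perFun_mem_perLattice (hg' x) (adjAct_mem_IntPoly _ _ _ hP)

/-- The period lattice is stable under the Hecke generators. -/
theorem perLattice_stable (N : ℕ) [NeZero N] (m : ℕ) :
    ∀ T ∈ CuspForm.heckeGenerators N ((m : ℤ) + 2) ∅, ∀ φ ∈ perLattice N m,
      φ.comp T ∈ perLattice N m := by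
  intro T hT φ hφ
  induction hφ using Submodule.span_induction with
  | mem ψ hψ =>
    obtain ⟨g, hg, P, hP, rfl⟩ := hψ
    rcases hT with ⟨ℓ, hℓ, hℓN, -, rfl⟩ | ⟨q, hqN, hq, -, rfl⟩
    · haveI : Fact ℓ.Prime := ⟨hℓ⟩
      exact perFun_comp_heckeT hℓN hg hP
    · haveI : NeZero q := ⟨hq.ne_zero⟩
      exact perFun_comp_heckeU hqN hg hP
  | zero => simp
  | add φ ψ _ _ hφ hψ =>
    have : (φ + ψ).comp T = φ.comp T + ψ.comp T := by ext f; simp
    rw [this]
    exact Submodule.add_mem _ hφ hψ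
  | smul c φ _ hφ =>
    have : (c • φ).comp T = c • φ.comp T := by ext f; simp
    rw [this]
    exact Submodule.smul_mem _ c hφ

end Fermat.Agent.S22
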