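import Mathlib

set_option linter.style.haveILetI false

/-!
# S22, abstract algebra core

If a set `gens` of `ℂ`-linear endomorphisms of `V` stabilises (by precomposition) a finitely
generated `ℤ`-lattice `L` of linear functionals on `V` which separates the points of `V`, then the
`ℤ`-algebra generated by `gens` is a finitely generated `ℤ`-module.
-/

set_option autoImplicit false

namespace Fermat.Agent.S22

open Module

variable {V : Type*} [AddCommGroup V] [Module ℂ V]

/-- Precomposition by every element of the adjoined algebra preserves the lattice. -/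
theorem comp_mem_of_mem_adjoin (gens : Set (Module.End ℂ V)) (L : Submodule ℤ (V →ₗ[ℂ] ℂ))
    (hstab : ∀ T ∈ gens, ∀ φ ∈ L, φ.comp T ∈ L) {t : Module.End ℂ V}
    (ht : t ∈ Algebra.adjoin ℤ gens) : ∀ φ ∈ L, φ.comp t ∈ L := by
  induction ht using Algebra.adjoin_induction with
  | mem x hx => exact hstab x hx
  | algebraMap r =>
    intro φ hφ
    have : φ.comp (algebraMap ℤ (Module.End ℂ V) r) = r • φ := by
      ext v
      simp
    rw [this]
    exact L.smul_mem r hφ
  | add x y _ _ hx hy =>
    intro φ hφ
    have : φ.comp (x + y) = φ.comp x + φ.comp y := by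
      ext v; simp
    rw [this]
    exact L.add_mem (hx φ hφ) (hy φ hφ)
  | mul x y _ _ hx hy =>
    intro φ hφ
    have : φ.comp (x * y) = (φ.comp x).comp y := by
      ext v; simp
    rw [this]
    exact hy _ (hx φ hφ)

/-- The abstract lattice criterion for finiteness of a `ℤ`-algebra of endomorphisms. -/
theorem moduleFinite_adjoin_of_lattice (gens : Set (Module.End ℂ V))
    (L : Submodule ℤ (V →ₗ[ℂ] ℂ)) (hfg : L.FG)
    (hsep : ∀ f : V, (∀ φ ∈ L, φ f = 0) → f = 0)
    (hstab : ∀ T ∈ gens, ∀ φ ∈ L, φ.comp T ∈ L) :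
    Module.Finite ℤ (Algebra.adjoin ℤ gens) := by
  classical
  have : Module.Finite ℤ L := Module.Finite.iff_fg.mpr hfg
  have : IsNoetherian ℤ L := isNoetherian_of_isNoetherianRing_of_finite ℤ L
  -- `End_ℤ(L)` is a finitely generated `ℤ`-module
  obtain ⟨s, hs⟩ := hfg
  -- evaluation at the finitely many generators
  let ev : (L →ₗ[ℤ] L) →ₗ[ℤ] (s → L) :=
    { toFun := fun F i => F ⟨i.1, hs ▸ Submodule.subset_span i.2⟩
      map_add' := fun F G => by ext i; simp
      map_smul' := fun c F => by ext i; simp }
  have hev : Function.Injective ev := by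
    intro F G hFG
    have key : ∀ x : V →ₗ[ℂ] ℂ, ∀ hx : x ∈ L, F ⟨x, hx⟩ = G ⟨x, hx⟩ := by
      intro x hx
      have hx' : x ∈ Submodule.span ℤ (s : Set (V →ₗ[ℂ] ℂ)) := hs ▸ hx
      induction hx' using Submodule.span_induction with
      | mem y hy =>
        have := congrFun hFG ⟨y, hy⟩
        exact this
      | zero =>
        have h0 : (⟨0, hx⟩ : L) = 0 := rfl
        rw [h0, map_zero, map_zero]
      | add y z hy hz ihy ihz =>
        have hy' : y ∈ L := hs ▸ hy
        have hz' : z ∈ L := hs ▸ hz
        have hsum : (⟨y + z, hx⟩ : L) = ⟨y, hy'⟩ + ⟨z, hz'⟩ := rfl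
        rw [hsum, map_add, map_add, ihy hy', ihz hz']
      | smul c y hy ihy =>
        have hy' : y ∈ L := hs ▸ hy
        have hsm : (⟨c • y, hx⟩ : L) = c • ⟨y, hy'⟩ := rfl
        rw [hsm, map_smul, map_smul, ihy hy']
    apply LinearMap.ext
    rintro ⟨x, hx⟩
    exact key x hx
  have : Module.Finite ℤ (s → L) := inferInstance
  have : IsNoetherian ℤ (s → L) := isNoetherian_of_isNoetherianRing_of_finite ℤ _
  have : IsNoetherian ℤ (L →ₗ[ℤ] L) := isNoetherian_of_injective ev hev
  -- the embedding of the adjoined algebra into `End_ℤ(L)`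
  let A := Algebra.adjoin ℤ gens
  let Ψ : A →ₗ[ℤ] (L →ₗ[ℤ] L) :=
    { toFun := fun t =>
        { toFun := fun φ => ⟨φ.1.comp t.1, comp_mem_of_mem_adjoin gens L hstab t.2 φ.1 φ.2⟩
          map_add' := fun φ ψ => by
            apply Subtype.ext
            ext v; simp
          map_smul' := fun c φ => by
            apply Subtype.ext
            ext v; simp }
      map_add' := fun t u => by
        ext φ v
        simp
      map_smul' := fun c t => by
        ext φ v
        simp }
  have hΨ : Function.Injective Ψ := by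
    intro t u htu
    apply Subtype.ext
    apply LinearMap.ext
    intro v
    rw [← sub_eq_zero]
    apply hsep
    intro φ hφ
    have h1 := congrArg (fun F : L →ₗ[ℤ] L => (F ⟨φ, hφ⟩).1 v) htu
    simp only [Ψ, LinearMap.coe_mk, AddHom.coe_mk, LinearMap.comp_apply] at h1
    rw [map_sub, h1, sub_self]
  have : IsNoetherian ℤ A := isNoetherian_of_injective Ψ hΨ
  exact Module.IsNoetherian.finite ℤ A

end Fermat.Agent.S22
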