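import Fermat.Agent.S22.EichInv

/-!
# The Eichler integral under a cusp translation (work package G2a)

If `f (σ τ) = (cτ+d)^(m+2) f' τ`, then `(cz+d)^m E_f(σ z) - E_{f'}(z)` is a polynomial of
degree `≤ m` in `z`.
-/

set_option autoImplicit false

namespace Fermat.Agent.S22

open UpperHalfPlane Complex Polynomial CongruenceSubgroup Filter Topology

open scoped MatrixGroups ModularForm

/-- The constant `G_{f,P}(σ z) - G_{f',σ⋆P}(z)` (evaluated at `z = i`). -/
noncomputable def translK (f f' : ℍ → ℂ) (m : ℕ) (σ : SL(2, ℤ)) (P : ℂ[X]) : ℂ :=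
  nprim (pf P f) (mobS σ Complex.I) - nprim (pf (actS m σ P) f') Complex.I

lemma translK_spec {f f' : ℍ → ℂ} (hf : GoodH f) (hf' : GoodH f') {m : ℕ} (σ : SL(2, ℤ))
    (hslash : ∀ τ : ℍ, f (σ • τ) = denS σ τ ^ (m + 2) * f' τ)
    {P : ℂ[X]} (hP : P.natDegree ≤ m) {z : ℂ} (hz : z ∈ UHP) :
    nprim (pf P f) (mobS σ z) = nprim (pf (actS m σ P) f') z + translK f f' m σ P := by
  have := transl_const hf hf' σ hslash hP hz I_mem_UHP
  unfold translK
  linear_combination this

lemma translK_add {f f' : ℍ → ℂ} (hf : GoodH f) (hf' : GoodH f') (m : ℕ) (σ : SL(2, ℤ))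
    (P Q : ℂ[X]) :
    translK f f' m σ (P + Q) = translK f f' m σ P + translK f f' m σ Q := by
  simp only [translK, actS_add, nprim_pf_add_poly hf _ _ (mobS_mem_UHP σ I_mem_UHP),
    nprim_pf_add_poly hf' _ _ I_mem_UHP]
  ring

lemma translK_C_mul {f f' : ℍ → ℂ} (hf : GoodH f) (hf' : GoodH f') (m : ℕ) (σ : SL(2, ℤ))
    (c : ℂ) (P : ℂ[X]) :
    translK f f' m σ (C c * P) = c * translK f f' m σ P := by
  simp only [translK, actS_C_mul, nprim_pf_C_mul_poly hf _ _ (mobS_mem_UHP σ I_mem_UHP),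
    nprim_pf_C_mul_poly hf' _ _ I_mem_UHP]
  ring

lemma translK_zero {f f' : ℍ → ℂ} (hf : GoodH f) (hf' : GoodH f') (m : ℕ) (σ : SL(2, ℤ)) :
    translK f f' m σ 0 = 0 := by
  have := translK_C_mul hf hf' m σ 0 0
  simpa using this

lemma translK_sum {f f' : ℍ → ℂ} (hf : GoodH f) (hf' : GoodH f') (m : ℕ) (σ : SL(2, ℤ))
    {ι : Type*} (s : Finset ι) (P : ι → ℂ[X]) :
    translK f f' m σ (∑ i ∈ s, P i) = ∑ i ∈ s, translK f f' m σ (P i) := by
  classical
  induction s using Finset.induction_on with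
  | empty => simpa using translK_zero hf hf' m σ
  | insert a s ha ih =>
    rw [Finset.sum_insert ha, Finset.sum_insert ha, translK_add hf hf', ih]

/-- Binomial expansion of the kernel polynomial. -/
lemma kerPoly_binom_expand_g2a (r : ℕ) (z : ℂ) :
    kerPoly r z =
      ∑ i ∈ Finset.range (r + 1), C ((r.choose i : ℂ) * (-1) ^ i * z ^ (r - i)) * X ^ i := by
  unfold kerPoly
  have e : (C z - X : ℂ[X]) = (-X) + C z := by ring
  rw [e, add_pow]
  refine Finset.sum_congr rfl fun i _ => ?_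
  simp only [C_mul, C_pow, C_neg, C_1, map_natCast, neg_pow (X : ℂ[X]) i]
  ring

/-- **Work package G2a.** The Eichler integral of `f` at `σ z` differs from the one of the
translate `f'` by a polynomial of degree `≤ m`. -/
theorem eich_translate {f f' : ℍ → ℂ} (hf : GoodH f) (hf' : GoodH f') {m : ℕ} (σ : SL(2, ℤ))
    (hslash : ∀ τ : ℍ, f (σ • τ) = denS σ τ ^ (m + 2) * f' τ) :
    ∃ R : ℂ[X], R.natDegree ≤ m ∧
      ∀ z ∈ UHP, denS σ z ^ m * eich f m (mobS σ z) = eich f' m z + R.eval z := by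
  set a : ℂ := (((σ 0 0 : ℤ) : ℝ) : ℂ) with ha
  set b : ℂ := (((σ 0 1 : ℤ) : ℝ) : ℂ) with hb
  set c : ℂ := (((σ 1 0 : ℤ) : ℝ) : ℂ) with hc
  set d : ℂ := (((σ 1 1 : ℤ) : ℝ) : ℂ) with hd
  refine ⟨∑ i ∈ Finset.range (m + 1),
      C ((m.choose i : ℂ) * (-1) ^ i * translK f f' m σ (X ^ i)) *
        ((C a * X + C b) ^ (m - i) * (C c * X + C d) ^ i), ?_, ?_⟩
  · refine natDegree_sum_le_of_forall_le _ _ fun i hi => ?_
    have hi' : i ≤ m := Nat.lt_succ_iff.mp (Finset.mem_range.mp hi)
    have h1 : ((C a * X + C b : ℂ[X]) ^ (m - i)).natDegree ≤ m - i := by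
      simpa using natDegree_pow_le_of_le (m - i) (natDegree_linear_le (a := a) (b := b))
    have h2 : ((C c * X + C d : ℂ[X]) ^ i).natDegree ≤ i := by
      simpa using natDegree_pow_le_of_le i (natDegree_linear_le (a := c) (b := d))
    have h3 := natDegree_mul_le_of_le h1 h2
    have h4 := natDegree_mul_le_of_le
      (natDegree_C ((m.choose i : ℂ) * (-1) ^ i * translK f f' m σ (X ^ i))).le h3
    refine h4.trans ?_
    omega
  · intro z hz
    have hden := denS_ne_zero σ hz
    have hw := mobS_mem_UHP σ hz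
    have hpow : denS σ z ^ m ≠ 0 := pow_ne_zero _ hden
    have e1 : eich f m (mobS σ z) =
        (denS σ z ^ m)⁻¹ * eich f' m z + translK f f' m σ (kerPoly m (mobS σ z)) := by
      unfold eich
      rw [translK_spec hf hf' σ hslash (natDegree_kerPoly_le m _) hz, actS_kerPoly m σ hz,
        nprim_pf_C_mul_poly hf' _ _ hz]
    have e2 : translK f f' m σ (kerPoly m (mobS σ z)) =
        ∑ i ∈ Finset.range (m + 1),
          ((m.choose i : ℂ) * (-1) ^ i * (mobS σ z) ^ (m - i)) * translK f f' m σ (X ^ i) := by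
      rw [kerPoly_binom_expand_g2a, translK_sum hf hf']
      refine Finset.sum_congr rfl fun i _ => ?_
      rw [translK_C_mul hf hf']
    rw [e1, e2, mul_add, ← mul_assoc, mul_inv_cancel₀ hpow, one_mul, Finset.mul_sum,
      eval_finsetSum]
    congr 1
    refine Finset.sum_congr rfl fun i hi => ?_
    have hi' : i ≤ m := Nat.lt_succ_iff.mp (Finset.mem_range.mp hi)
    have e3 : denS σ z ^ m * mobS σ z ^ (m - i) = (a * z + b) ^ (m - i) * (c * z + d) ^ i := by
      have hm : denS σ z ^ m = denS σ z ^ (m - i) * denS σ z ^ i := by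
        rw [← pow_add, Nat.sub_add_cancel hi']
      have hmob : mobS σ z * denS σ z = a * z + b := by
        unfold mobS mob
        unfold denS at hden ⊢
        exact div_mul_cancel₀ _ hden
      rw [hm, ← hmob, mul_pow]
      unfold denS
      ring
    simp only [eval_mul, eval_C, eval_pow, eval_add, eval_X]
    linear_combination ((m.choose i : ℂ) * (-1) ^ i * translK f f' m σ (X ^ i)) * e3

end Fermat.Agent.S22
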