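import Fermat.Agent.S22.EichCalc
import Fermat.Agent.S22.EichTransl
import Fermat.Prelude.Thm_Subgroup_IsArithmetic_exists_nat_mem_strictPeriods_conj

/-!
# Cusp forms are separated by their periods

If all periods of a cusp form `f` of weight `m + 2` on `Γ₀(N)` vanish, then the Eichler integral
of `f` is a modular form of weight `-m` on `Γ₀(N)`, hence constant, hence `f = 0`.
-/

set_option autoImplicit false

namespace Fermat.Agent.S22

open UpperHalfPlane Complex Polynomial CongruenceSubgroup Filter Topology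

open scoped MatrixGroups ModularForm Manifold
/-- Extension of the vanishing of periods from monomials to all polynomials of degree `≤ m`. -/
lemma per_eq_zero_of_monomials {f : ℍ → ℂ} (hf : GoodH f) {m : ℕ} {g : SL(2, ℤ)}
    (h : ∀ i ≤ m, per f m g (X ^ i) = 0) {P : ℂ[X]} (hP : P.natDegree ≤ m) :
    per f m g P = 0 := by
  rw [as_sum_range_C_mul_X_pow' P (Nat.lt_succ_of_le hP), per_sum_poly hf]
  refine Finset.sum_eq_zero fun i hi => ?_
  rw [per_C_mul_poly hf, h i (Nat.lt_succ_iff.mp (Finset.mem_range.mp hi)), mul_zero]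

/-- The Eichler integral, as a function on `ℍ`. -/
noncomputable def eichH (f : ℍ → ℂ) (m : ℕ) : ℍ → ℂ := fun τ => eich f m (τ : ℂ)

lemma eichH_slash_apply (f : ℍ → ℂ) (m : ℕ) (g : SL(2, ℤ)) (τ : ℍ) :
    (eichH f m ∣[-(m : ℤ)] g) τ = denS g τ ^ m * eich f m (mobS g τ) := by
  rw [SL_slash_apply', eichH, coe_smul_eq_mobS, neg_neg, zpow_natCast, mul_comm]

lemma eichH_slash_eq {f : ℍ → ℂ} (hf : GoodH f) {m : ℕ} {g : SL(2, ℤ)}
    (hinv : ∀ τ : ℍ, f (g • τ) = denS g τ ^ (m + 2) * f τ)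
    (hper : ∀ P : ℂ[X], P.natDegree ≤ m → per f m g P = 0) :
    eichH f m ∣[-(m : ℤ)] g = eichH f m := by
  funext τ
  rw [eichH_slash_apply, eich_invariant hf hinv hper (coe_mem_UHP τ)]
  rfl

/-- The Eichler integral as a slash invariant form of weight `-m`. -/
noncomputable def eichSIF {N : ℕ} {m : ℕ} (f : CuspForm (Gamma0 N) ((m : ℤ) + 2))
    (hper : ∀ g ∈ Gamma0 N, ∀ P : ℂ[X], P.natDegree ≤ m → per (f : ℍ → ℂ) m g P = 0) :
    SlashInvariantForm (Gamma0 N) (-(m : ℤ)) where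
  toFun := eichH f m
  slash_action_eq' γ hγ := by
    obtain ⟨g, hg, rfl⟩ := Subgroup.mem_map.mp hγ
    exact eichH_slash_eq (goodH_cuspForm f) (cuspForm_smul_eq' f hg) (hper g hg)

/-- Slash translates recover the original function. -/
lemma slash_translate_eq (f : ℍ → ℂ) (m : ℕ) (σ : SL(2, ℤ)) (τ : ℍ) :
    f (σ • τ) = denS σ τ ^ (m + 2) * (f ∣[(m : ℤ) + 2] σ) τ := by
  have h := denS_ne_zero σ (coe_mem_UHP τ)
  rw [SL_slash_apply']
  have e : ((m : ℤ) + 2) = ((m + 2 : ℕ) : ℤ) := by push_cast; ring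
  rw [e, zpow_neg, zpow_natCast]
  field_simp

/-- A polynomial which is periodic of positive period on the upper half plane is constant. -/
lemma poly_const_of_periodic {R : ℂ[X]} {h : ℝ} (hh : 0 < h)
    (hper : ∀ z ∈ UHP, R.eval (z + h) = R.eval z) : ∀ z : ℂ, R.eval z = R.eval Complex.I := by
  have hI : ∀ n : ℕ, Complex.I + (n : ℂ) * h ∈ UHP ∧
      R.eval (Complex.I + (n : ℂ) * h) = R.eval Complex.I := by
    intro n
    induction n with
    | zero => simpa using I_mem_UHP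
    | succ n ih =>
      have hmem : Complex.I + ((n + 1 : ℕ) : ℂ) * h ∈ UHP := by
        simp [UHP]
      refine ⟨hmem, ?_⟩
      have := hper _ ih.1
      rw [← ih.2, ← this]
      congr 1
      push_cast
      ring
  have hinj : Function.Injective fun n : ℕ => Complex.I + (n : ℂ) * h := by
    intro a b hab
    simp only [add_right_inj] at hab
    have hne : (h : ℂ) ≠ 0 := by exact_mod_cast hh.ne'
    exact_mod_cast mul_right_cancel₀ hne hab
  have hzero : R - C (R.eval Complex.I) = 0 := by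
    apply eq_zero_of_infinite_isRoot
    refine Set.Infinite.mono ?_ (Set.infinite_range_of_injective hinj)
    rintro _ ⟨n, rfl⟩
    simp [IsRoot, (hI n).2]
  intro z
  have := congrArg (fun Q : ℂ[X] => Q.eval z) hzero
  simpa [sub_eq_zero] using this

theorem eich_isBoundedAtImInfty_slash {N : ℕ} [NeZero N] {m : ℕ}
    (f : CuspForm (Gamma0 N) ((m : ℤ) + 2))
    (hper : ∀ g ∈ Gamma0 N, ∀ P : ℂ[X], P.natDegree ≤ m → per (f : ℍ → ℂ) m g P = 0)
    (σ : SL(2, ℤ)) :
    IsBoundedAtImInfty ((fun τ : ℍ => eich (f : ℍ → ℂ) m (τ : ℂ)) ∣[-(m : ℤ)] σ) := by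
  obtain ⟨M, hM, hconj⟩ := Subgroup.IsArithmetic.exists_nat_mem_strictPeriods_conj
    ((Gamma0 N : Subgroup SL(2, ℤ)) : Subgroup (GL (Fin 2) ℝ))
  have hMσ := hconj σ⁻¹
  rw [map_inv] at hMσ
  have hMpos : (0 : ℝ) < M := by exact_mod_cast hM
  -- the translate
  set f' : CuspForm _ ((m : ℤ) + 2) :=
    CuspForm.translate f (Matrix.SpecialLinearGroup.mapGL ℝ σ) with hf'def
  have hf'coe : (f' : ℍ → ℂ) = (f : ℍ → ℂ) ∣[(m : ℤ) + 2] σ := rfl
  have hf : GoodH (f : ℍ → ℂ) := goodH_cuspForm f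
  have hf' : GoodH (f' : ℍ → ℂ) := goodH_of_cuspForm f' hMpos hMσ
  have hperf' : ∀ τ : ℍ, f' ((M : ℝ) +ᵥ τ) = f' τ := fun τ =>
    SlashInvariantForm.vAdd_apply_of_mem_strictPeriods f' τ hMσ
  have hslash : ∀ τ : ℍ, (f : ℍ → ℂ) (σ • τ) = denS σ τ ^ (m + 2) * (f' : ℍ → ℂ) τ := by
    intro τ
    rw [hf'coe]
    exact slash_translate_eq f m σ τ
  obtain ⟨R, hR, hRz⟩ := eich_translate hf hf' σ hslash
  -- the translate of the Eichler integral
  set Φ' : SlashInvariantForm _ (-(m : ℤ)) :=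
    SlashInvariantForm.translate (eichSIF f hper) (Matrix.SpecialLinearGroup.mapGL ℝ σ)
  have hΦ'coe : (Φ' : ℍ → ℂ) = eichH f m ∣[-(m : ℤ)] σ := rfl
  have hΦ'per : ∀ τ : ℍ, Φ' ((M : ℝ) +ᵥ τ) = Φ' τ := fun τ =>
    SlashInvariantForm.vAdd_apply_of_mem_strictPeriods Φ' τ hMσ
  have hΦ' : ∀ τ : ℍ, Φ' τ = eich f' m τ + R.eval (τ : ℂ) := by
    intro τ
    rw [hΦ'coe, eichH_slash_apply, hRz _ (coe_mem_UHP τ)]
  have hRper : ∀ z ∈ UHP, R.eval (z + (M : ℝ)) = R.eval z := by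
    intro z hz
    have h1 := hΦ'per ⟨z, hz⟩
    rw [hΦ', hΦ'] at h1
    have e : (((M : ℝ) +ᵥ (⟨z, hz⟩ : ℍ) : ℍ) : ℂ) = z + (M : ℝ) := by
      rw [UpperHalfPlane.coe_vadd]; simp [add_comm]
    rw [e, eich_periodic hf' m hperf' hz] at h1
    simpa using h1
  have hRc := poly_const_of_periodic hMpos hRper
  -- conclusion
  have hlim : Tendsto (fun τ : ℍ => eich f' m τ + R.eval Complex.I) atImInfty
      (𝓝 (0 + R.eval Complex.I)) :=
    (eich_tendsto_zero hf' m hMpos hperf').add tendsto_const_nhds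
  have : (fun τ : ℍ => eich (f : ℍ → ℂ) m (τ : ℂ)) ∣[-(m : ℤ)] σ =
      fun τ : ℍ => eich f' m τ + R.eval Complex.I := by
    funext τ
    have := hΦ' τ
    rw [hRc] at this
    exact this
  rw [this]
  exact hlim.isBigO_one ℝ

/-- The Eichler integral is holomorphic on the upper half plane. -/
lemma differentiableOn_eich {f : ℍ → ℂ} (hf : GoodH f) (m : ℕ) :
    DifferentiableOn ℂ (eich f m) UHP := by
  intro z hz
  cases m with
  | zero => exact (hasDerivAt_eich_zero hf hz).differentiableAt.differentiableWithinAt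
  | succ r => exact (hasDerivAt_eich_succ hf r hz).differentiableAt.differentiableWithinAt

lemma mdifferentiable_eichH {f : ℍ → ℂ} (hf : GoodH f) (m : ℕ) : MDiff (eichH f m) := by
  rw [UpperHalfPlane.mdifferentiable_iff]
  refine (differentiableOn_eich hf m).congr ?_
  intro z hz
  simp [eichH, Function.comp, ofComplex_apply_of_im_pos hz]

/-- The Eichler integral as a modular form of weight `-m`. -/
noncomputable def eichMF {N : ℕ} [NeZero N] {m : ℕ} (f : CuspForm (Gamma0 N) ((m : ℤ) + 2))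
    (hper : ∀ g ∈ Gamma0 N, ∀ P : ℂ[X], P.natDegree ≤ m → per (f : ℍ → ℂ) m g P = 0) :
    ModularForm (Gamma0 N) (-(m : ℤ)) where
  toSlashInvariantForm := eichSIF f hper
  holo' := mdifferentiable_eichH (goodH_cuspForm f) m
  bdd_at_cusps' {c} hc := by
    rw [Subgroup.IsArithmetic.isCusp_iff_isCusp_SL2Z] at hc
    rw [OnePoint.isBoundedAt_iff_forall_SL2Z hc]
    exact fun γ _ => eich_isBoundedAtImInfty_slash f hper γ

lemma eichMF_apply {N : ℕ} [NeZero N] {m : ℕ} (f : CuspForm (Gamma0 N) ((m : ℤ) + 2))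
    (hper : ∀ g ∈ Gamma0 N, ∀ P : ℂ[X], P.natDegree ≤ m → per (f : ℍ → ℂ) m g P = 0) (τ : ℍ) :
    eichMF f hper τ = eich (f : ℍ → ℂ) m (τ : ℂ) := rfl

/-- A cusp form of weight `m + 2` on `Γ₀(N)` all of whose periods vanish is zero. -/
theorem per_separating {N : ℕ} [NeZero N] {m : ℕ} (f : CuspForm (Gamma0 N) ((m : ℤ) + 2))
    (hper : ∀ g ∈ Gamma0 N, ∀ i ≤ m, per (f : ℍ → ℂ) m g (X ^ i) = 0) : f = 0 := by
  have hf := goodH_cuspForm f
  have hper' : ∀ g ∈ Gamma0 N, ∀ P : ℂ[X], P.natDegree ≤ m → per (f : ℍ → ℂ) m g P = 0 :=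
    fun g hg P hP => per_eq_zero_of_monomials hf (hper g hg) hP
  have hconst : ∃ c : ℂ, ∀ τ : ℍ, eich (f : ℍ → ℂ) m τ = c := by
    rcases Nat.eq_zero_or_pos m with hm | hm
    · have h0 : -(m : ℤ) = 0 := by simp [hm]
      obtain ⟨c, hc⟩ := ModularForm.eq_const_of_weight_zero (ModularForm.mcast h0 (eichMF f hper'))
      refine ⟨c, fun τ => ?_⟩
      have := congrFun hc τ
      simpa [eichMF_apply] using this
    · have hneg : -(m : ℤ) < 0 := by simpa using hm
      have h0 := ModularForm.isZero_of_neg_weight hneg (eichMF f hper')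
      refine ⟨0, fun τ => ?_⟩
      rw [← eichMF_apply f hper' τ, h0]
      rfl
  obtain ⟨c, hc⟩ := hconst
  have h0 := eq_zero_of_eich_const hf m (fun z hz w hw => by
    have h1 := hc ⟨z, hz⟩
    have h2 := hc ⟨w, hw⟩
    simp only at h1 h2
    rw [h1, h2])
  ext τ
  exact h0 τ

end Fermat.Agent.S22
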