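import Mathlib
import Fermat.Prelude.Def_CuspForm_HeckeAlgebra

/-!
# S22: the weights for which the space of cusp forms is trivial, and the reduction to `S = ∅`.
-/

set_option autoImplicit false
set_option linter.style.haveILetI false

namespace Fermat.Agent.S22

open CongruenceSubgroup UpperHalfPlane ModularForm
open scoped MatrixGroups ModularForm

/-- Cusp forms of odd weight on `Γ₀(N)` vanish, as `-1 ∈ Γ₀(N)`. -/
theorem cuspForm_eq_zero_of_odd (N : ℕ) {k : ℤ} (hk : Odd k)
    (f : CuspForm (Gamma0 N) k) : f = 0 := by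
  have hmem : (-1 : GL (Fin 2) ℝ) ∈ (Gamma0 N).map (Matrix.SpecialLinearGroup.mapGL ℝ) := by
    refine ⟨-1, ?_, by ext; simp⟩
    simp [Gamma0_mem]
  ext z
  have hf := SlashInvariantForm.slash_action_eqn'' f hmem z
  rw [neg_smul, one_smul, denom_neg, denom_one, hk.neg_one_zpow] at hf
  have h2 : (2 : ℂ) * f z = 0 := by linear_combination hf
  exact (mul_eq_zero.mp h2).resolve_left (by norm_num)

/-- Cusp forms of negative weight on `Γ₀(N)` vanish. -/
theorem cuspForm_eq_zero_of_neg (N : ℕ) [NeZero N] {k : ℤ} (hk : k < 0)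
    (f : CuspForm (Gamma0 N) k) : f = 0 := by
  have h := ModularForm.isZero_of_neg_weight hk (CuspForm.toModularFormₗ f)
  exact CuspForm.toModularFormₗ_injective (by rw [h, map_zero])

/-- Cusp forms of weight zero on `Γ₀(N)` vanish. -/
theorem cuspForm_eq_zero_of_weight_zero (N : ℕ) [NeZero N]
    (f : CuspForm (Gamma0 N) 0) : f = 0 := by
  obtain ⟨c, hc⟩ := ModularForm.eq_const_of_weight_zero (CuspForm.toModularFormₗ f)
  have hzero : IsZeroAtImInfty (f : ℍ → ℂ) := by
    have := CuspFormClass.zero_at_infty f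
    exact this
  have hfc : (f : ℍ → ℂ) = Function.const ℍ c := by
    rw [← hc]; rfl
  have hc0 : c = 0 := by
    rw [hfc] at hzero
    have h1 : Filter.Tendsto (Function.const ℍ c) atImInfty (nhds 0) := hzero
    have h2 : Filter.Tendsto (Function.const ℍ c) atImInfty (nhds c) := tendsto_const_nhds
    exact tendsto_nhds_unique h2 h1
  ext z
  rw [hfc, hc0]
  rfl

/-- For `k ≤ 1`, the space of cusp forms of weight `k` on `Γ₀(N)` is trivial. -/
theorem subsingleton_cuspForm_of_le_one (N : ℕ) [NeZero N] {k : ℤ} (hk : k ≤ 1) :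
    Subsingleton (CuspForm (Gamma0 N) k) := by
  refine ⟨fun f g => ?_⟩
  suffices h : ∀ f : CuspForm (Gamma0 N) k, f = 0 by rw [h f, h g]
  intro f
  rcases lt_trichotomy k 0 with h | h | h
  · exact cuspForm_eq_zero_of_neg N h f
  · subst h; exact cuspForm_eq_zero_of_weight_zero N f
  · have : k = 1 := by omega
    subst this
    exact cuspForm_eq_zero_of_odd N odd_one f

/-- For odd `k`, the space of cusp forms of weight `k` on `Γ₀(N)` is trivial. -/
theorem subsingleton_cuspForm_of_odd (N : ℕ) {k : ℤ} (hk : Odd k) :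
    Subsingleton (CuspForm (Gamma0 N) k) :=
  ⟨fun f g => by rw [cuspForm_eq_zero_of_odd N hk f, cuspForm_eq_zero_of_odd N hk g]⟩

/-- If the space of cusp forms is trivial, the Hecke algebra is a finite `ℤ`-module. -/
theorem moduleFinite_heckeAlgebra_of_subsingleton (N : ℕ) [NeZero N] (k : ℤ) (S : Set ℕ)
    [Subsingleton (CuspForm (Gamma0 N) k)] :
    Module.Finite ℤ (CuspForm.heckeAlgebra N k S) := by
  have : Subsingleton (Module.End ℂ (CuspForm (Gamma0 N) k)) :=
    ⟨fun a b => LinearMap.ext fun x => Subsingleton.elim _ _⟩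
  have : Subsingleton (CuspForm.heckeAlgebra N k S) :=
    ⟨fun a b => Subtype.ext (Subsingleton.elim _ _)⟩
  infer_instance

/-- Reduction of the finiteness statement to the case `S = ∅`. -/
theorem moduleFinite_heckeAlgebra_of_empty (N : ℕ) [NeZero N] (k : ℤ) (S : Set ℕ)
    (h : Module.Finite ℤ (CuspForm.heckeAlgebra N k ∅)) :
    Module.Finite ℤ (CuspForm.heckeAlgebra N k S) := by
  have hle : CuspForm.heckeAlgebra N k S ≤ CuspForm.heckeAlgebra N k ∅ :=
    CuspForm.heckeAlgebra_mono (Set.empty_subset S)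
  have : IsNoetherian ℤ (CuspForm.heckeAlgebra N k ∅) :=
    isNoetherian_of_isNoetherianRing_of_finite ℤ _
  have hinj : Function.Injective (Subalgebra.inclusion hle) := Subalgebra.inclusion_injective hle
  have : IsNoetherian ℤ (CuspForm.heckeAlgebra N k S) :=
    isNoetherian_of_injective (Subalgebra.inclusion hle).toLinearMap hinj
  exact Module.IsNoetherian.finite ℤ _

end Fermat.Agent.S22
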