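import Fermat.Agent.S22.EichDecay

/-!
# Calculus of the Eichler integral

Binomial expansion of the Eichler integral, its derivative, and the fact that a
function whose Eichler integral is constant vanishes.
-/

set_option autoImplicit false

namespace Fermat.Agent.S22

open UpperHalfPlane Complex Polynomial CongruenceSubgroup Filter Topology

open scoped MatrixGroups ModularForm

namespace EichCalc

/-- Alternating sum of binomial coefficients, over `ℂ`. -/
lemma alt_sum_choose_succ (r : ℕ) :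
    ∑ i ∈ Finset.range (r + 2), ((r + 1).choose i : ℂ) * (-1) ^ i = 0 := by
  have h := Int.alternating_sum_range_choose_of_ne (n := r + 1) (Nat.succ_ne_zero r)
  have h2 : ((∑ i ∈ Finset.range (r + 1 + 1), (-1 : ℤ) ^ i * ((r + 1).choose i : ℤ) : ℤ) : ℂ) = 0 := by
    rw [h]; simp
  push_cast at h2
  rw [← h2]
  refine Finset.sum_congr rfl fun i _ => ?_
  ring

/-- The algebraic identity behind the derivative of the Eichler integral. -/
lemma deriv_identity (r : ℕ) (z t : ℂ) (G : ℕ → ℂ) :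
    ∑ i ∈ Finset.range (r + 2), ((r + 1).choose i : ℂ) * (-1) ^ i *
        (((r + 1 - i : ℕ) : ℂ) * z ^ (r + 1 - i - 1) * G i + z ^ (r + 1 - i) * (z ^ i * t)) =
      ((r : ℂ) + 1) * ∑ i ∈ Finset.range (r + 1),
        (r.choose i : ℂ) * (-1) ^ i * z ^ (r - i) * G i := by
  have hsplit : ∀ i ∈ Finset.range (r + 2), ((r + 1).choose i : ℂ) * (-1) ^ i *
        (((r + 1 - i : ℕ) : ℂ) * z ^ (r + 1 - i - 1) * G i + z ^ (r + 1 - i) * (z ^ i * t)) =
      ((r + 1).choose i : ℂ) * (-1) ^ i * ((r + 1 - i : ℕ) : ℂ) * z ^ (r + 1 - i - 1) * G i +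
        (((r + 1).choose i : ℂ) * (-1) ^ i) * (z ^ (r + 1) * t) := by
    intro i hi
    have hi' : i ≤ r + 1 := Nat.lt_succ_iff.mp (Finset.mem_range.mp hi)
    have e : z ^ (r + 1 - i) * z ^ i = z ^ (r + 1) := by
      rw [← pow_add, Nat.sub_add_cancel hi']
    rw [mul_add, ← mul_assoc (z ^ (r + 1 - i)), e]
    ring
  rw [Finset.sum_congr rfl hsplit, Finset.sum_add_distrib, ← Finset.sum_mul,
    alt_sum_choose_succ, zero_mul, add_zero, Finset.sum_range_succ]
  have hlast : ((r + 1).choose (r + 1) : ℂ) * (-1) ^ (r + 1) * ((r + 1 - (r + 1) : ℕ) : ℂ) *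
      z ^ (r + 1 - (r + 1) - 1) * G (r + 1) = 0 := by
    simp
  rw [hlast, add_zero, Finset.mul_sum]
  refine Finset.sum_congr rfl fun i hi => ?_
  have hi' : i ≤ r := Nat.lt_succ_iff.mp (Finset.mem_range.mp hi)
  have e1 : r + 1 - i - 1 = r - i := by omega
  have e2 : (((r + 1).choose i : ℂ)) * ((r + 1 - i : ℕ) : ℂ) = (r.choose i : ℂ) * ((r : ℂ) + 1) := by
    have := Nat.choose_mul_succ_eq r i
    have h2 : ((r.choose i * (r + 1) : ℕ) : ℂ) = (((r + 1).choose i * (r + 1 - i) : ℕ) : ℂ) := by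
      rw [this]
    push_cast at h2
    exact h2.symm
  rw [e1]
  calc ((r + 1).choose i : ℂ) * (-1) ^ i * ((r + 1 - i : ℕ) : ℂ) * z ^ (r - i) * G i
      = (((r + 1).choose i : ℂ) * ((r + 1 - i : ℕ) : ℂ)) * (-1) ^ i * z ^ (r - i) * G i := by ring
    _ = ((r : ℂ) + 1) * ((r.choose i : ℂ) * (-1) ^ i * z ^ (r - i) * G i) := by rw [e2]; ring

/-- Derivative of the monomial primitives. -/
lemma hasDerivAt_nprim_monomial {f : ℍ → ℂ} (hf : GoodH f) (i : ℕ) {z : ℂ} (hz : z ∈ UHP) :
    HasDerivAt (nprim (pf (X ^ i) f)) (z ^ i * toC f z) z := by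
  have := (isNP_nprim (hf.good_pf (X ^ i))).hasDerivAt z hz
  simpa [pf] using this

end EichCalc

open EichCalc

/-- Binomial expansion of the Eichler integral. -/
theorem eich_eq_sum {f : ℍ → ℂ} (hf : GoodH f) (r : ℕ) {z : ℂ} (hz : z ∈ UHP) :
    eich f r z = ∑ i ∈ Finset.range (r + 1),
      (r.choose i : ℂ) * (-1) ^ i * z ^ (r - i) * nprim (pf (X ^ i) f) z :=
  EichDecay.eich_expand hf r hz

/-- The Eichler integral of order `0` is a primitive of `f`. -/
theorem hasDerivAt_eich_zero {f : ℍ → ℂ} (hf : GoodH f) {z : ℂ} (hz : z ∈ UHP) :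
    HasDerivAt (eich f 0) (toC f z) z := by
  have h := hasDerivAt_nprim_monomial hf 0 hz
  have e : eich f 0 = nprim (pf (X ^ 0) f) := by
    funext w
    simp [eich, kerPoly]
  rw [e]
  simpa using h

/-- The derivative of the Eichler integral of order `r + 1` is `(r + 1)` times the Eichler
integral of order `r`. -/
theorem hasDerivAt_eich_succ {f : ℍ → ℂ} (hf : GoodH f) (r : ℕ) {z : ℂ} (hz : z ∈ UHP) :
    HasDerivAt (eich f (r + 1)) (((r : ℂ) + 1) * eich f r z) z := by
  -- derivative of the explicit sum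
  have hterm : ∀ i ∈ Finset.range (r + 2), HasDerivAt
      (fun w : ℂ => ((r + 1).choose i : ℂ) * (-1) ^ i * w ^ (r + 1 - i) * nprim (pf (X ^ i) f) w)
      (((r + 1).choose i : ℂ) * (-1) ^ i *
        (((r + 1 - i : ℕ) : ℂ) * z ^ (r + 1 - i - 1) * nprim (pf (X ^ i) f) z +
          z ^ (r + 1 - i) * (z ^ i * toC f z))) z := by
    intro i _
    have h1 : HasDerivAt (fun w : ℂ => w ^ (r + 1 - i))
        (((r + 1 - i : ℕ) : ℂ) * z ^ (r + 1 - i - 1)) z := hasDerivAt_pow (r + 1 - i) z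
    have h2 := h1.mul (hasDerivAt_nprim_monomial hf i hz)
    have h3 := h2.const_mul (((r + 1).choose i : ℂ) * (-1) ^ i)
    refine (h3.congr_of_eventuallyEq (Eventually.of_forall fun w => ?_)).congr_deriv ?_
    · simp only [Pi.mul_apply]
      ring
    · ring
  have hsum := HasDerivAt.fun_sum hterm
  rw [deriv_identity r z (toC f z) (fun i => nprim (pf (X ^ i) f) z),
    ← eich_eq_sum hf r hz] at hsum
  refine hsum.congr_of_eventuallyEq ?_
  filter_upwards [isOpen_UHP.mem_nhds hz] with w hw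
  exact eich_eq_sum hf (r + 1) hw

/-- If the Eichler integral of `f` (of any order) is constant, then `f = 0`. -/
theorem eq_zero_of_eich_const {f : ℍ → ℂ} (hf : GoodH f) (r : ℕ)
    (hconst : ∀ z ∈ UHP, ∀ w ∈ UHP, eich f r z = eich f r w) : ∀ τ : ℍ, f τ = 0 := by
  -- a function which is constant on `UHP` has zero derivative there
  have hzero : ∀ (F : ℂ → ℂ) (d : ℂ) (z : ℂ), z ∈ UHP → HasDerivAt F d z →
      (∀ a ∈ UHP, ∀ b ∈ UHP, F a = F b) → d = 0 := by
    intro F d z hz hF hc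
    have h1 : HasDerivAt (fun _ : ℂ => F z) d z := by
      refine hF.congr_of_eventuallyEq ?_
      filter_upwards [isOpen_UHP.mem_nhds hz] with w hw
      exact hc z hz w hw
    exact h1.unique (hasDerivAt_const z (F z))
  induction r with
  | zero =>
    intro τ
    have hτ : (τ : ℂ) ∈ UHP := coe_mem_UHP τ
    have := hzero _ _ _ hτ (hasDerivAt_eich_zero hf hτ) hconst
    rwa [toC_coe] at this
  | succ r ih =>
    apply ih
    have hvan : ∀ z ∈ UHP, eich f r z = 0 := by
      intro z hz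
      have := hzero _ _ _ hz (hasDerivAt_eich_succ hf r hz) hconst
      have hne : ((r : ℂ) + 1) ≠ 0 := by
        exact_mod_cast Nat.succ_ne_zero r
      exact (mul_eq_zero.mp this).resolve_left hne
    intro z hz w hw
    rw [hvan z hz, hvan w hw]

end Fermat.Agent.S22
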