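import Fermat.Agent.S22.EichDef

/-!
# Periodicity and decay of the Eichler integral
-/

set_option autoImplicit false

namespace Fermat.Agent.S22

open UpperHalfPlane Complex Polynomial CongruenceSubgroup Filter Topology

open scoped MatrixGroups ModularForm

namespace EichDecay

/-- Periodicity of `toC f` on the upper half plane. -/
lemma toC_add_real {f : ℍ → ℂ} {h : ℝ} (hper : ∀ τ : ℍ, f (h +ᵥ τ) = f τ) {w : ℂ}
    (hw : w ∈ UHP) : toC f (w + h) = toC f w := by
  have hw' : w + h ∈ UHP := by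
    simpa [UHP] using hw
  rw [toC_apply f hw', toC_apply f hw, ← hper ⟨w, hw⟩]
  congr 1
  apply UpperHalfPlane.ext
  simp [add_comm]

/-- Binomial expansion of the kernel polynomial. -/
lemma kerPoly_eq_sum (r : ℕ) (z : ℂ) :
    kerPoly r z = ∑ i ∈ Finset.range (r + 1),
      C ((r.choose i : ℂ) * (-1) ^ i * z ^ (r - i)) * X ^ i := by
  unfold kerPoly
  have e : (C z - X : ℂ[X]) = C (-1 : ℂ) * X + C z := by
    simp [sub_eq_add_neg, add_comm]
  rw [e, add_pow]
  refine Finset.sum_congr rfl fun i _ => ?_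
  rw [mul_pow, ← C_pow, ← C_pow, ← C_eq_natCast, C_mul, C_mul]
  ring

/-- Expansion of `nprim (pf (kerPoly r z) f)` in terms of the monomial primitives. -/
lemma nprim_kerPoly {f : ℍ → ℂ} (hf : GoodH f) (r : ℕ) (z : ℂ) {w : ℂ} (hw : w ∈ UHP) :
    nprim (pf (kerPoly r z) f) w = ∑ i ∈ Finset.range (r + 1),
      (r.choose i : ℂ) * (-1) ^ i * z ^ (r - i) * nprim (pf (X ^ i) f) w := by
  rw [kerPoly_eq_sum, nprim_pf_sum_poly hf _ _ hw]
  refine Finset.sum_congr rfl fun i _ => ?_
  rw [nprim_pf_C_mul_poly hf _ _ hw]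

/-- The Eichler integral as a sum. -/
lemma eich_expand {f : ℍ → ℂ} (hf : GoodH f) (r : ℕ) {z : ℂ} (hz : z ∈ UHP) :
    eich f r z = ∑ i ∈ Finset.range (r + 1),
      (r.choose i : ℂ) * (-1) ^ i * z ^ (r - i) * nprim (pf (X ^ i) f) z :=
  nprim_kerPoly hf r z hz

/-- The explicit sum decays exponentially on strips. -/
lemma expDecayStrip_sum {f : ℍ → ℂ} (hf : GoodH f) (r : ℕ) :
    ExpDecayStrip (fun z => ∑ i ∈ Finset.range (r + 1),
      (r.choose i : ℂ) * (-1) ^ i * z ^ (r - i) * nprim (pf (X ^ i) f) z) := by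
  refine ExpDecayStrip.sum _ fun i _ => ?_
  have h1 : ExpDecayStrip (nprim (pf (X ^ i) f)) :=
    (isNP_nprim (hf.good_pf (X ^ i))).expDecayStrip (hf.good_pf (X ^ i)).2
  have h2 := (h1.pow_mul (r - i)).const_mul ((r.choose i : ℂ) * (-1) ^ i)
  intro R
  obtain ⟨C, c, A, hC, hc, hA, hb⟩ := h2 R
  exact ⟨C, c, A, hC, hc, hA, fun z hzR hzA => by
    have := hb z hzR hzA
    simpa [mul_assoc] using this⟩

end EichDecay

open EichDecay

/-- The Eichler integral of a periodic function is periodic. -/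
theorem eich_periodic {f : ℍ → ℂ} (hf : GoodH f) (m : ℕ) {h : ℝ}
    (hper : ∀ τ : ℍ, f (h +ᵥ τ) = f τ) {z : ℂ} (hz : z ∈ UHP) :
    eich f m (z + h) = eich f m z := by
  unfold eich
  have h1 := (isNP_nprim (hf.good_pf (kerPoly m (z + h)))).comp_affine one_pos h
  have h2 : IsNP (pf (kerPoly m z) f) (fun w => nprim (pf (kerPoly m (z + h)) f) ((1 : ℝ) * w + h)) := by
    refine h1.congr fun w hw => ?_
    simp only [pf, ofReal_one, one_mul, eval_kerPoly]
    rw [toC_add_real hper hw]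
    congr 1
    ring
  have := h2.eq_nprim (hf.good_pf _) hz
  simpa using this

/-- Iterated periodicity. -/
lemma EichDecay.eich_add_int_mul {f : ℍ → ℂ} (hf : GoodH f) (m : ℕ) {h : ℝ}
    (hper : ∀ τ : ℍ, f (h +ᵥ τ) = f τ) (n : ℤ) {z : ℂ} (hz : z ∈ UHP) :
    eich f m (z + n * h) = eich f m z := by
  have hper' : ∀ τ : ℍ, f (((n : ℝ) * h) +ᵥ τ) = f τ := by
    intro τ
    induction n using Int.induction_on generalizing τ with
    | zero => simp
    | succ k ih =>
      have e : (((k + 1 : ℤ) : ℝ) * h) +ᵥ τ = h +ᵥ (((k : ℝ) * h) +ᵥ τ) := by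
        apply UpperHalfPlane.ext
        simp only [UpperHalfPlane.coe_vadd]
        push_cast
        ring
      rw [e, hper]
      exact_mod_cast ih τ
    | pred k ih =>
      have e : h +ᵥ ((((-(k : ℤ) - 1 : ℤ) : ℝ) * h) +ᵥ τ) = (((-(k : ℤ) : ℤ) : ℝ) * h) +ᵥ τ := by
        apply UpperHalfPlane.ext
        simp only [UpperHalfPlane.coe_vadd]
        push_cast
        ring
      rw [← hper, e]
      exact ih τ
  have := eich_periodic hf m hper' hz
  simpa using this

/-- The Eichler integral of a periodic good function tends to `0` at `i∞`. -/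
theorem eich_tendsto_zero {f : ℍ → ℂ} (hf : GoodH f) (m : ℕ) {h : ℝ} (hh : 0 < h)
    (hper : ∀ τ : ℍ, f (h +ᵥ τ) = f τ) :
    Tendsto (fun τ : ℍ => eich f m (τ : ℂ)) atImInfty (𝓝 0) := by
  obtain ⟨C, c, A, hC, hc, hA, hb⟩ := expDecayStrip_sum hf m h
  -- the bound holds everywhere above height `A`
  have hbound : ∀ τ : ℍ, A ≤ τ.im → ‖eich f m (τ : ℂ)‖ ≤ C * Real.exp (-c * τ.im) := by
    intro τ hτ
    set n : ℤ := ⌊(τ : ℂ).re / h⌋ with hn
    set z : ℂ := (τ : ℂ) + ((-n : ℤ) : ℂ) * h with hz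
    have hzmem : z ∈ UHP := by
      simp only [hz, UHP, Set.mem_ofPred_eq, add_im, mul_im, intCast_re, ofReal_im, mul_zero,
        intCast_im, ofReal_re, zero_mul, add_zero]
      exact τ.im_pos
    have hzim : z.im = τ.im := by
      simp [hz]
    have hzre : z.re = (τ : ℂ).re - n * h := by
      simp [hz]
      ring
    have h1 : eich f m z = eich f m (τ : ℂ) :=
      eich_add_int_mul hf m hper (-n) (coe_mem_UHP τ)
    have hre : |z.re| ≤ h := by
      rw [hzre]
      have hfl := Int.floor_le ((τ : ℂ).re / h)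
      have hlt := Int.lt_floor_add_one ((τ : ℂ).re / h)
      rw [← hn] at hfl hlt
      have e1 : (n : ℝ) * h ≤ (τ : ℂ).re := by
        have := mul_le_mul_of_nonneg_right hfl hh.le
        rwa [div_mul_cancel₀ _ hh.ne'] at this
      have e2 : (τ : ℂ).re < ((n : ℝ) + 1) * h := by
        have := mul_lt_mul_of_pos_right hlt hh
        rwa [div_mul_cancel₀ _ hh.ne'] at this
      rw [abs_le]
      constructor <;> nlinarith
    have h2 := hb z hre (by rw [hzim]; exact hτ)
    beta_reduce at h2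
    rw [← eich_expand hf m hzmem, h1, hzim] at h2
    exact h2
  apply squeeze_zero_norm' (a := fun τ : ℍ => C * Real.exp (-c * τ.im))
  · exact (UpperHalfPlane.atImInfty_mem _).mpr ⟨A, fun τ hτ => hbound τ hτ⟩
  · have h1 : Tendsto (fun τ : ℍ => τ.im) atImInfty atTop := tendsto_comap
    have h2 := (tendsto_exp_neg_mul_atTop hc).comp h1
    have h3 := h2.const_mul C
    simpa using h3

end Fermat.Agent.S22
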