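import Fermat.Agent.S22.Period

/-!
# The Eichler integral (definitions only)
-/

set_option autoImplicit false

namespace Fermat.Agent.S22

open UpperHalfPlane Complex Polynomial

/-- The kernel polynomial `(z - X)^r`. -/
noncomputable def kerPoly (r : ℕ) (z : ℂ) : ℂ[X] := (C z - X) ^ r

/-- The Eichler integral `∫_∞^z f(w) (z - w)^r dw`, defined through normalised primitives. -/
noncomputable def eich (f : ℍ → ℂ) (r : ℕ) (z : ℂ) : ℂ := nprim (pf (kerPoly r z) f) z

lemma natDegree_kerPoly_le (r : ℕ) (z : ℂ) : (kerPoly r z).natDegree ≤ r := by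
  unfold kerPoly
  have h1 : (C z - X : ℂ[X]).natDegree ≤ 1 := by
    have := natDegree_linear_le (a := (-1 : ℂ)) (b := z)
    have e : (C (-1 : ℂ) * X + C z : ℂ[X]) = C z - X := by
      simp [sub_eq_add_neg, add_comm]
    rwa [e] at this
  simpa using natDegree_pow_le_of_le r h1

lemma eval_kerPoly (r : ℕ) (z w : ℂ) : (kerPoly r z).eval w = (z - w) ^ r := by
  simp [kerPoly]

end Fermat.Agent.S22
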