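import Fermat.Agent.S22.EichDef

/-!
# Invariance of the Eichler integral under elements with vanishing periods
-/

set_option autoImplicit false

namespace Fermat.Agent.S22

open UpperHalfPlane Complex Polynomial CongruenceSubgroup Filter Topology

open scoped MatrixGroups ModularForm

/-- The determinant relation, in `ℂ`. -/
lemma det_S_complex (g : SL(2, ℤ)) :
    ((((g 0 0 : ℤ) : ℝ) : ℂ)) * ((((g 1 1 : ℤ) : ℝ) : ℂ)) -
      ((((g 0 1 : ℤ) : ℝ) : ℂ)) * ((((g 1 0 : ℤ) : ℝ) : ℂ)) = 1 := by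
  have := det_S g
  exact_mod_cast this

/-- The difference of two Möbius images. -/
lemma mobS_sub_mobS (g : SL(2, ℤ)) {z w : ℂ} (hz : z ∈ UHP) (hw : w ∈ UHP) :
    mobS g z - mobS g w = (z - w) / (denS g z * denS g w) := by
  have h1 := denS_ne_zero g hz
  have h2 := denS_ne_zero g hw
  have hdet := det_S_complex g
  unfold mobS mob
  unfold denS at h1 h2 ⊢
  rw [div_sub_div _ _ h1 h2, div_left_inj' (mul_ne_zero h1 h2)]
  linear_combination (z - w) * hdet

/-- The action of `g` on the kernel polynomial at `g z`. -/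
lemma actS_kerPoly (m : ℕ) (g : SL(2, ℤ)) {z : ℂ} (hz : z ∈ UHP) :
    actS m g (kerPoly m (mobS g z)) = C ((denS g z ^ m)⁻¹) * kerPoly m z := by
  apply poly_eq_of_eval_eq_UHP
  intro w hw
  have h1 := denS_ne_zero g hz
  have h2 := denS_ne_zero g hw
  rw [eval_actS g (natDegree_kerPoly_le m _) hw, eval_kerPoly, eval_mul, eval_C, eval_kerPoly,
    mobS_sub_mobS g hz hw, div_pow, mul_pow]
  field_simp

/-- If all periods of `f` along `g` vanish, the Eichler integral is invariant under `g` in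
weight `-m`. -/
theorem eich_invariant {f : ℍ → ℂ} (hf : GoodH f) {m : ℕ} {g : SL(2, ℤ)}
    (hinv : ∀ τ : ℍ, f (g • τ) = denS g τ ^ (m + 2) * f τ)
    (hper : ∀ P : ℂ[X], P.natDegree ≤ m → per f m g P = 0) {z : ℂ} (hz : z ∈ UHP) :
    denS g z ^ m * eich f m (mobS g z) = eich f m z := by
  have h1 := denS_ne_zero g hz
  have hP := natDegree_kerPoly_le m (mobS g z)
  have hs := per_spec hf hinv hP hz
  rw [hper _ hP, sub_eq_zero, actS_kerPoly m g hz, nprim_pf_C_mul_poly hf _ _ hz] at hs
  unfold eich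
  rw [hs]
  field_simp

end Fermat.Agent.S22
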