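import Fermat.Agent.S22.Prim

/-!
# The action of 2x2 matrices on polynomials of degree `≤ m`, and Möbius maps
-/

set_option autoImplicit false

namespace Fermat.Agent.S22

open Polynomial Complex

section general

variable {R : Type*} [CommRing R]

/-- `(A ⋆ P)(X) = ∑_{i ≤ m} p_i (aX+b)^i (cX+d)^(m-i)`, i.e. `(cX+d)^m P((aX+b)/(cX+d))`. -/
noncomputable def polyAct (m : ℕ) (a b c d : R) (P : R[X]) : R[X] :=
  ∑ i ∈ Finset.range (m + 1), C (P.coeff i) * (C a * X + C b) ^ i * (C c * X + C d) ^ (m - i)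

lemma polyAct_add (m : ℕ) (a b c d : R) (P Q : R[X]) :
    polyAct m a b c d (P + Q) = polyAct m a b c d P + polyAct m a b c d Q := by
  simp only [polyAct, coeff_add, C_add, add_mul, Finset.sum_add_distrib]

lemma polyAct_C_mul (m : ℕ) (a b c d : R) (r : R) (P : R[X]) :
    polyAct m a b c d (C r * P) = C r * polyAct m a b c d P := by
  simp only [polyAct, coeff_C_mul, C_mul, Finset.mul_sum, mul_assoc]

lemma polyAct_zero (m : ℕ) (a b c d : R) : polyAct m a b c d (0 : R[X]) = 0 := by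
  simp [polyAct]

lemma polyAct_neg (m : ℕ) (a b c d : R) (P : R[X]) :
    polyAct m a b c d (-P) = -polyAct m a b c d P := by
  simp [polyAct, Finset.sum_neg_distrib]

lemma polyAct_sub (m : ℕ) (a b c d : R) (P Q : R[X]) :
    polyAct m a b c d (P - Q) = polyAct m a b c d P - polyAct m a b c d Q := by
  rw [sub_eq_add_neg, polyAct_add, polyAct_neg, ← sub_eq_add_neg]

lemma polyAct_sum {ι : Type*} (s : Finset ι) (m : ℕ) (a b c d : R) (P : ι → R[X]) :
    polyAct m a b c d (∑ i ∈ s, P i) = ∑ i ∈ s, polyAct m a b c d (P i) := by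
  classical
  induction s using Finset.induction_on with
  | empty => simp [polyAct_zero]
  | insert x s hx ih => rw [Finset.sum_insert hx, Finset.sum_insert hx, polyAct_add, ih]

lemma natDegree_polyAct_le (m : ℕ) (a b c d : R) (P : R[X]) :
    (polyAct m a b c d P).natDegree ≤ m := by
  apply natDegree_sum_le_of_forall_le
  intro i hi
  have hi' : i ≤ m := Nat.lt_succ_iff.mp (Finset.mem_range.mp hi)
  have h1 : ((C a * X + C b : R[X]) ^ i).natDegree ≤ i := by
    simpa using natDegree_pow_le_of_le i (natDegree_linear_le (a := a) (b := b))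
  have h2 : ((C c * X + C d : R[X]) ^ (m - i)).natDegree ≤ m - i := by
    simpa using natDegree_pow_le_of_le (m - i) (natDegree_linear_le (a := c) (b := d))
  have h3 : (C (P.coeff i) * (C a * X + C b) ^ i).natDegree ≤ i :=
    (natDegree_C_mul_le _ _).trans h1
  calc (C (P.coeff i) * (C a * X + C b) ^ i * (C c * X + C d) ^ (m - i)).natDegree
      ≤ i + (m - i) := natDegree_mul_le_of_le h3 h2
    _ = m := by omega

lemma polyAct_map {S : Type*} [CommRing S] (φ : R →+* S) (m : ℕ) (a b c d : R) (P : R[X]) :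
    (polyAct m a b c d P).map φ = polyAct m (φ a) (φ b) (φ c) (φ d) (P.map φ) := by
  simp [polyAct, Polynomial.map_sum, coeff_map]

lemma polyAct_one (m : ℕ) {P : R[X]} (hP : P.natDegree ≤ m) : polyAct m 1 0 0 1 P = P := by
  conv_rhs => rw [as_sum_range_C_mul_X_pow' P (Nat.lt_succ_of_le hP)]
  simp [polyAct]

end general

/-- Evaluation of `polyAct`. -/
lemma eval_polyAct {m : ℕ} (a b c d : ℂ) {P : ℂ[X]} (hP : P.natDegree ≤ m) {z : ℂ}
    (hz : c * z + d ≠ 0) :
    (polyAct m a b c d P).eval z = (c * z + d) ^ m * P.eval ((a * z + b) / (c * z + d)) := by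
  rw [eval_eq_sum_range' (Nat.lt_succ_of_le hP), polyAct, eval_finsetSum, Finset.mul_sum]
  refine Finset.sum_congr rfl fun i hi => ?_
  have hi' : i ≤ m := Nat.lt_succ_iff.mp (Finset.mem_range.mp hi)
  simp only [eval_mul, eval_C, eval_pow, eval_add, eval_X]
  have : (c * z + d) ^ m = (c * z + d) ^ i * (c * z + d) ^ (m - i) := by
    rw [← pow_add]; congr 1; omega
  rw [this, div_pow]
  generalize c * z + d = w at hz
  generalize a * z + b = v
  have hw : w ^ i ≠ 0 := pow_ne_zero _ hz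
  field_simp

/-- Möbius transformation with real coefficients, as a function on `ℂ`. -/
noncomputable def mob (a b c d : ℝ) (z : ℂ) : ℂ := ((a : ℂ) * z + b) / ((c : ℂ) * z + d)

lemma denom_ne_zero_of_det {a b c d : ℝ} (hdet : 0 < a * d - b * c) {z : ℂ} (hz : z ∈ UHP) :
    (c : ℂ) * z + d ≠ 0 := by
  intro h
  have him : c * z.im = 0 := by
    have := congrArg Complex.im h
    simpa using this
  have hre : c * z.re + d = 0 := by
    have := congrArg Complex.re h
    simpa using this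
  have hz' : z.im ≠ 0 := (mem_UHP.mp hz).ne'
  have hc : c = 0 := by
    rcases mul_eq_zero.mp him with h | h
    · exact h
    · exact absurd h hz'
  have hd : d = 0 := by rw [hc] at hre; simpa using hre
  rw [hc, hd] at hdet
  simp at hdet

lemma mob_im (a b c d : ℝ) (z : ℂ) :
    (mob a b c d z).im = (a * d - b * c) * z.im / Complex.normSq ((c : ℂ) * z + d) := by
  unfold mob
  rw [Complex.div_im]
  simp only [add_im, mul_im, ofReal_re, ofReal_im, zero_mul, add_zero, add_re, mul_re, sub_zero]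
  ring

lemma mob_mem_UHP {a b c d : ℝ} (hdet : 0 < a * d - b * c) {z : ℂ} (hz : z ∈ UHP) :
    mob a b c d z ∈ UHP := by
  rw [mem_UHP, mob_im]
  have h := denom_ne_zero_of_det hdet hz
  exact div_pos (mul_pos hdet hz) (Complex.normSq_pos.mpr h)

lemma hasDerivAt_mob (a b c d : ℝ) {z : ℂ} (hz : (c : ℂ) * z + d ≠ 0) :
    HasDerivAt (mob a b c d) ((((a * d - b * c : ℝ)) : ℂ) / ((c : ℂ) * z + d) ^ 2) z := by
  have h1 : HasDerivAt (fun z : ℂ => (a : ℂ) * z + b) (a : ℂ) z := by
    simpa using ((hasDerivAt_id z).const_mul (a : ℂ)).add_const (b : ℂ)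
  have h2 : HasDerivAt (fun z : ℂ => (c : ℂ) * z + d) (c : ℂ) z := by
    simpa using ((hasDerivAt_id z).const_mul (c : ℂ)).add_const (d : ℂ)
  have := h1.div h2 hz
  refine this.congr_deriv ?_
  push_cast
  ring

lemma mob_mob {a b c d a' b' c' d' : ℝ} (hdet : 0 < a * d - b * c)
    (hdet' : 0 < a' * d' - b' * c') {z : ℂ} (hz : z ∈ UHP) :
    mob a b c d (mob a' b' c' d' z) =
      mob (a * a' + b * c') (a * b' + b * d') (c * a' + d * c') (c * b' + d * d') z := by
  have h1 := denom_ne_zero_of_det hdet' hz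
  have h2 := denom_ne_zero_of_det hdet (mob_mem_UHP hdet' hz)
  unfold mob at h2 ⊢
  have e1 : (a : ℂ) * (((a' : ℂ) * z + b') / ((c' : ℂ) * z + d')) + b =
      (a * ((a' : ℂ) * z + b') + b * ((c' : ℂ) * z + d')) / ((c' : ℂ) * z + d') := by
    generalize (c' : ℂ) * z + d' = D' at h1
    field_simp
  have e2 : (c : ℂ) * (((a' : ℂ) * z + b') / ((c' : ℂ) * z + d')) + d =
      (c * ((a' : ℂ) * z + b') + d * ((c' : ℂ) * z + d')) / ((c' : ℂ) * z + d') := by
    generalize (c' : ℂ) * z + d' = D' at h1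
    field_simp
  rw [e1, e2, div_div_div_cancel_right₀ h1]
  congr 1 <;> (push_cast; ring)

lemma denom_mob {c d a' b' c' d' : ℝ}
    (hdet' : 0 < a' * d' - b' * c') {z : ℂ} (hz : z ∈ UHP) :
    ((c : ℂ) * mob a' b' c' d' z + d) * ((c' : ℂ) * z + d') =
      ((c * a' + d * c' : ℝ) : ℂ) * z + ((c * b' + d * d' : ℝ) : ℂ) := by
  have h1 := denom_ne_zero_of_det hdet' hz
  unfold mob
  have e2 : ((c : ℂ) * (((a' : ℂ) * z + b') / ((c' : ℂ) * z + d')) + d) * ((c' : ℂ) * z + d') =
      (c * ((a' : ℂ) * z + b') + d * ((c' : ℂ) * z + d')) := by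
    generalize (c' : ℂ) * z + d' = D' at h1
    field_simp
  rw [e2]
  push_cast; ring

lemma det_mul_pos {a b c d a' b' c' d' : ℝ} (hdet : 0 < a * d - b * c)
    (hdet' : 0 < a' * d' - b' * c') :
    0 < (a * a' + b * c') * (c * b' + d * d') - (a * b' + b * d') * (c * a' + d * c') := by
  have : (a * a' + b * c') * (c * b' + d * d') - (a * b' + b * d') * (c * a' + d * c') =
      (a * d - b * c) * (a' * d' - b' * c') := by ring
  rw [this]; exact mul_pos hdet hdet'

lemma UHP_infinite : UHP.Infinite :=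
  infinite_of_mem_nhds Complex.I (isOpen_UHP.mem_nhds I_mem_UHP)

/-- Two polynomials that agree on the upper half plane are equal. -/
lemma poly_eq_of_eval_eq_UHP {P Q : ℂ[X]} (h : ∀ z ∈ UHP, P.eval z = Q.eval z) : P = Q :=
  eq_of_infinite_eval_eq P Q (UHP_infinite.mono fun z hz => h z hz)

/-- Evaluation of `polyAct` for real matrices of positive determinant on the upper half plane. -/
lemma eval_polyAct_real {m : ℕ} {a b c d : ℝ} (hdet : 0 < a * d - b * c) {P : ℂ[X]}
    (hP : P.natDegree ≤ m) {z : ℂ} (hz : z ∈ UHP) :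
    (polyAct m (a : ℂ) b c d P).eval z = ((c : ℂ) * z + d) ^ m * P.eval (mob a b c d z) :=
  eval_polyAct _ _ _ _ hP (denom_ne_zero_of_det hdet hz)

/-- Compatibility of `polyAct` with matrix multiplication: `B ⋆ (A ⋆ P) = (A B) ⋆ P`. -/
lemma polyAct_polyAct {m : ℕ} {a b c d a' b' c' d' : ℝ} (hdet : 0 < a * d - b * c)
    (hdet' : 0 < a' * d' - b' * c') {P : ℂ[X]} (hP : P.natDegree ≤ m) :
    polyAct m (a' : ℂ) b' c' d' (polyAct m (a : ℂ) b c d P) =
      polyAct m ((a * a' + b * c' : ℝ) : ℂ) ((a * b' + b * d' : ℝ) : ℂ)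
        ((c * a' + d * c' : ℝ) : ℂ) ((c * b' + d * d' : ℝ) : ℂ) P := by
  apply poly_eq_of_eval_eq_UHP
  intro z hz
  rw [eval_polyAct_real hdet' (natDegree_polyAct_le _ _ _ _ _ _) hz,
    eval_polyAct_real hdet hP (mob_mem_UHP hdet' hz),
    eval_polyAct_real (det_mul_pos hdet hdet') hP hz, mob_mob hdet hdet' hz, ← mul_assoc,
    ← mul_pow, mul_comm ((c' : ℂ) * z + d'), denom_mob hdet' hz]

/-- Polynomials of degree `≤ m` with integer coefficients, inside `ℂ[X]`. -/
def IntPoly (m : ℕ) : Set ℂ[X] :=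
  {P | ∃ Q : ℤ[X], Q.natDegree ≤ m ∧ Q.map (Int.castRingHom ℂ) = P}

lemma IntPoly.natDegree_le {m : ℕ} {P : ℂ[X]} (hP : P ∈ IntPoly m) : P.natDegree ≤ m := by
  obtain ⟨Q, hQ, rfl⟩ := hP
  exact natDegree_map_le.trans hQ

lemma X_pow_mem_IntPoly {m i : ℕ} (hi : i ≤ m) : (X ^ i : ℂ[X]) ∈ IntPoly m :=
  ⟨X ^ i, by simpa using hi, by simp⟩

lemma polyAct_mem_IntPoly {m : ℕ} (a b c d : ℤ) {P : ℂ[X]} (hP : P ∈ IntPoly m) :
    polyAct m (a : ℂ) b c d P ∈ IntPoly m := by
  obtain ⟨Q, hQ, rfl⟩ := hP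
  refine ⟨polyAct m a b c d Q, natDegree_polyAct_le _ _ _ _ _ _, ?_⟩
  rw [polyAct_map]
  simp

/-- An integral polynomial is an integer combination of monomials. -/
lemma IntPoly.eq_sum {m : ℕ} {P : ℂ[X]} (hP : P ∈ IntPoly m) :
    ∃ q : ℕ → ℤ, P = ∑ i ∈ Finset.range (m + 1), C (q i : ℂ) * X ^ i := by
  obtain ⟨Q, hQ, rfl⟩ := hP
  refine ⟨fun i => Q.coeff i, ?_⟩
  conv_lhs => rw [as_sum_range_C_mul_X_pow' Q (Nat.lt_succ_of_le hQ)]
  simp [Polynomial.map_sum]

end Fermat.Agent.S22
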