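import Fermat.Agent.S22.NormPrim
import Fermat.Agent.S22.PolyAct

/-!
# Glue between functions on `ℍ` and functions on `ℂ`; the action of `SL(2, ℤ)`
-/

set_option autoImplicit false

namespace Fermat.Agent.S22

open UpperHalfPlane Complex Polynomial Filter Topology

open scoped MatrixGroups ModularForm

/-- Extension of a function on `ℍ` to `ℂ` (junk outside the upper half plane). -/
noncomputable def toC (f : ℍ → ℂ) : ℂ → ℂ := fun z => f (ofComplex z)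

lemma toC_apply (f : ℍ → ℂ) {z : ℂ} (hz : z ∈ UHP) : toC f z = f ⟨z, hz⟩ := by
  simp [toC, ofComplex_apply_of_im_pos (mem_UHP.mp hz)]

lemma coe_mem_UHP (τ : ℍ) : (τ : ℂ) ∈ UHP := τ.im_pos

lemma toC_coe (f : ℍ → ℂ) (τ : ℍ) : toC f τ = f τ := by
  rw [toC_apply f (coe_mem_UHP τ)]

/-- Functions on `ℍ` which are holomorphic and decay exponentially on vertical strips. -/
def GoodH (f : ℍ → ℂ) : Prop := Good (toC f)

/-- The function `z ↦ P(z) f(z)`. -/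
noncomputable def pf (P : ℂ[X]) (f : ℍ → ℂ) : ℂ → ℂ := fun z => P.eval z * toC f z

lemma GoodH.good_pf {f : ℍ → ℂ} (hf : GoodH f) (P : ℂ[X]) : Good (pf P f) :=
  Good.polynomial_mul hf P

lemma GoodH.add {f₁ f₂ : ℍ → ℂ} (h₁ : GoodH f₁) (h₂ : GoodH f₂) : GoodH (f₁ + f₂) :=
  Good.add h₁ h₂

lemma GoodH.const_smul {f : ℍ → ℂ} (h : GoodH f) (c : ℂ) : GoodH (c • f) :=
  Good.const_mul h c

/-- A cusp form with a positive strict period is good. -/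
lemma goodH_of_cuspForm {Γ : Subgroup (GL (Fin 2) ℝ)} {k : ℤ} {F : Type*} [FunLike F ℍ ℂ]
    [CuspFormClass F Γ k] (f : F) {h : ℝ} (hh : 0 < h) (hΓ : h ∈ Γ.strictPeriods) :
    GoodH (f : ℍ → ℂ) := by
  refine ⟨UpperHalfPlane.mdifferentiable_iff.mp (CuspFormClass.holo f), fun R => ?_⟩
  obtain ⟨C, hC⟩ := (CuspFormClass.exp_decay_atImInfty f hh hΓ).bound
  obtain ⟨A, hA⟩ := (UpperHalfPlane.atImInfty_mem _).mp hC
  refine ⟨max C 0, 2 * Real.pi / h, max A 1, le_max_right _ _, by positivity,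
    lt_max_of_lt_right one_pos, fun z _ hzA => ?_⟩
  have hzpos : 0 < z.im := lt_of_lt_of_le (lt_max_of_lt_right one_pos) hzA
  have := hA ⟨z, hzpos⟩ ((le_max_left _ _).trans hzA)
  simp only [Set.mem_ofPred_eq, Real.norm_eq_abs, Real.abs_exp] at this
  rw [toC_apply _ (mem_UHP.mpr hzpos)]
  refine this.trans ?_
  have e : -2 * Real.pi * (⟨z, hzpos⟩ : ℍ).im / h = -(2 * Real.pi / h) * z.im := by
    show -2 * Real.pi * z.im / h = _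
    ring
  rw [e]
  exact mul_le_mul_of_nonneg_right (le_max_left _ _) (Real.exp_pos _).le

/-- The Möbius transformation attached to an element of `SL(2, ℤ)`. -/
noncomputable def mobS (g : SL(2, ℤ)) (z : ℂ) : ℂ :=
  mob ((g 0 0 : ℤ) : ℝ) ((g 0 1 : ℤ) : ℝ) ((g 1 0 : ℤ) : ℝ) ((g 1 1 : ℤ) : ℝ) z

/-- The action of `SL(2, ℤ)` on polynomials of degree `≤ m`. -/
noncomputable def actS (m : ℕ) (g : SL(2, ℤ)) (P : ℂ[X]) : ℂ[X] :=
  polyAct m (((g 0 0 : ℤ) : ℝ) : ℂ) (((g 0 1 : ℤ) : ℝ) : ℂ) (((g 1 0 : ℤ) : ℝ) : ℂ)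
    (((g 1 1 : ℤ) : ℝ) : ℂ) P

lemma det_S_int (g : SL(2, ℤ)) : (g 0 0) * (g 1 1) - (g 0 1) * (g 1 0) = 1 := by
  have := g.det_coe
  rw [Matrix.det_fin_two] at this
  exact this

lemma det_S (g : SL(2, ℤ)) :
    ((g 0 0 : ℤ) : ℝ) * ((g 1 1 : ℤ) : ℝ) - ((g 0 1 : ℤ) : ℝ) * ((g 1 0 : ℤ) : ℝ) = 1 := by
  exact_mod_cast det_S_int g

lemma det_S_pos (g : SL(2, ℤ)) :
    0 < ((g 0 0 : ℤ) : ℝ) * ((g 1 1 : ℤ) : ℝ) - ((g 0 1 : ℤ) : ℝ) * ((g 1 0 : ℤ) : ℝ) := by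
  rw [det_S]; exact one_pos

lemma mobS_mem_UHP (g : SL(2, ℤ)) {z : ℂ} (hz : z ∈ UHP) : mobS g z ∈ UHP :=
  mob_mem_UHP (det_S_pos g) hz

/-- The denominator `c z + d`. -/
noncomputable def denS (g : SL(2, ℤ)) (z : ℂ) : ℂ :=
  (((g 1 0 : ℤ) : ℝ) : ℂ) * z + (((g 1 1 : ℤ) : ℝ) : ℂ)

lemma denS_ne_zero (g : SL(2, ℤ)) {z : ℂ} (hz : z ∈ UHP) : denS g z ≠ 0 :=
  denom_ne_zero_of_det (det_S_pos g) hz

lemma coe_smul_eq_mobS (g : SL(2, ℤ)) (τ : ℍ) : ((g • τ : ℍ) : ℂ) = mobS g τ := by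
  rw [UpperHalfPlane.coe_specialLinearGroup_apply]
  simp [mobS, mob]

lemma smul_eq_mk_mobS (g : SL(2, ℤ)) (τ : ℍ) :
    g • τ = ⟨mobS g τ, mobS_mem_UHP g (coe_mem_UHP τ)⟩ := by
  apply UpperHalfPlane.ext
  exact coe_smul_eq_mobS g τ

lemma SL_slash_apply' (k : ℤ) (f : ℍ → ℂ) (g : SL(2, ℤ)) (τ : ℍ) :
    (f ∣[k] g) τ = f (g • τ) * (denS g τ) ^ (-k) := by
  rw [ModularForm.SL_slash_apply]
  simp [denom, denS]

lemma mobS_one {z : ℂ} : mobS 1 z = z := by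
  simp [mobS, mob]

lemma mobS_mul (g h : SL(2, ℤ)) {z : ℂ} (hz : z ∈ UHP) :
    mobS (g * h) z = mobS g (mobS h z) := by
  unfold mobS
  rw [mob_mob (det_S_pos g) (det_S_pos h) hz]
  simp only [Matrix.SpecialLinearGroup.coe_mul, Matrix.mul_apply, Fin.sum_univ_two]
  push_cast
  rfl

lemma denS_mul (g h : SL(2, ℤ)) {z : ℂ} (hz : z ∈ UHP) :
    denS (g * h) z = denS g (mobS h z) * denS h z := by
  unfold denS mobS
  rw [denom_mob (det_S_pos h) hz]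
  simp only [Matrix.SpecialLinearGroup.coe_mul, Matrix.mul_apply, Fin.sum_univ_two]
  push_cast
  ring

lemma natDegree_actS_le (m : ℕ) (g : SL(2, ℤ)) (P : ℂ[X]) : (actS m g P).natDegree ≤ m :=
  natDegree_polyAct_le _ _ _ _ _ _

lemma actS_one {m : ℕ} {P : ℂ[X]} (hP : P.natDegree ≤ m) : actS m 1 P = P := by
  have := polyAct_one (R := ℂ) m hP
  simpa [actS] using this

lemma actS_mul {m : ℕ} (g h : SL(2, ℤ)) {P : ℂ[X]} (hP : P.natDegree ≤ m) :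
    actS m (g * h) P = actS m h (actS m g P) := by
  unfold actS
  rw [polyAct_polyAct (det_S_pos g) (det_S_pos h) hP]
  simp only [Matrix.SpecialLinearGroup.coe_mul, Matrix.mul_apply, Fin.sum_univ_two]
  push_cast
  rfl

lemma actS_add (m : ℕ) (g : SL(2, ℤ)) (P Q : ℂ[X]) :
    actS m g (P + Q) = actS m g P + actS m g Q := polyAct_add _ _ _ _ _ _ _

lemma actS_C_mul (m : ℕ) (g : SL(2, ℤ)) (r : ℂ) (P : ℂ[X]) :
    actS m g (C r * P) = C r * actS m g P := polyAct_C_mul _ _ _ _ _ _ _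

lemma actS_mem_IntPoly {m : ℕ} (g : SL(2, ℤ)) {P : ℂ[X]} (hP : P ∈ IntPoly m) :
    actS m g P ∈ IntPoly m := by
  have := polyAct_mem_IntPoly (g 0 0) (g 0 1) (g 1 0) (g 1 1) hP
  simpa [actS] using this

lemma eval_actS {m : ℕ} (g : SL(2, ℤ)) {P : ℂ[X]} (hP : P.natDegree ≤ m) {z : ℂ}
    (hz : z ∈ UHP) : (actS m g P).eval z = (denS g z) ^ m * P.eval (mobS g z) :=
  eval_polyAct_real (det_S_pos g) hP hz

lemma hasDerivAt_mobS (g : SL(2, ℤ)) {z : ℂ} (hz : z ∈ UHP) :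
    HasDerivAt (mobS g) (1 / (denS g z) ^ 2) z := by
  have := hasDerivAt_mob ((g 0 0 : ℤ) : ℝ) ((g 0 1 : ℤ) : ℝ) ((g 1 0 : ℤ) : ℝ) ((g 1 1 : ℤ) : ℝ)
    (denS_ne_zero g hz)
  rw [det_S] at this
  have e : mobS g = mob ((g 0 0 : ℤ) : ℝ) ((g 0 1 : ℤ) : ℝ) ((g 1 0 : ℤ) : ℝ) ((g 1 1 : ℤ) : ℝ) :=
    rfl
  rw [e]
  refine this.congr_deriv ?_
  simp [denS]

end Fermat.Agent.S22
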