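import Fermat.Agent.S22.Period

/-!
# Abstract Hecke equivariance of the period cocycle

Given upper triangular integer matrices `α_x = [a_x, b_x; 0, d_x]` (`x` in a finite index type),
a function `f'` whose normalised primitives are `∑_x G_{f, adj(α_x) ⋆ P} ∘ α_x`
(this is the case for `f' = ∑_x f ∣ α_x`), and the coset identities
`α_x g = g'_x α_{σ x}` for a permutation `σ`, we get
`per f' m g P = ∑_x per f m g'_x (adj(α_x) ⋆ P)`.
-/

set_option autoImplicit false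

namespace Fermat.Agent.S22

open UpperHalfPlane Complex Polynomial CongruenceSubgroup

open scoped MatrixGroups ModularForm

/-- The polynomial `adj(α) ⋆ P` for `α = [a, b; 0, d]`. -/
noncomputable def adjAct (m : ℕ) (a b d : ℤ) (P : ℂ[X]) : ℂ[X] :=
  polyAct m (((d : ℤ) : ℝ) : ℂ) (((-b : ℤ) : ℝ) : ℂ) (((0 : ℤ) : ℝ) : ℂ) (((a : ℤ) : ℝ) : ℂ) P

/-- The affine map `z ↦ (a z + b) / d`. -/
noncomputable def affS (a b d : ℤ) (z : ℂ) : ℂ :=
  mob ((a : ℤ) : ℝ) ((b : ℤ) : ℝ) ((0 : ℤ) : ℝ) ((d : ℤ) : ℝ) z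

lemma affS_apply (a b d : ℤ) (z : ℂ) : affS a b d z = ((a : ℂ) * z + b) / d := by
  simp [affS, mob]

lemma natDegree_adjAct_le (m : ℕ) (a b d : ℤ) (P : ℂ[X]) : (adjAct m a b d P).natDegree ≤ m :=
  natDegree_polyAct_le _ _ _ _ _ _

lemma adjAct_mem_IntPoly {m : ℕ} (a b d : ℤ) {P : ℂ[X]} (hP : P ∈ IntPoly m) :
    adjAct m a b d P ∈ IntPoly m := by
  have := polyAct_mem_IntPoly d (-b) 0 a hP
  simpa [adjAct] using this

lemma affS_det_pos {a d : ℤ} (ha : 0 < a) (hd : 0 < d) (b : ℤ) :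
    (0 : ℝ) < ((a : ℤ) : ℝ) * ((d : ℤ) : ℝ) - ((b : ℤ) : ℝ) * ((0 : ℤ) : ℝ) := by
  have : (0 : ℝ) < (a : ℝ) * (d : ℝ) := mul_pos (by exact_mod_cast ha) (by exact_mod_cast hd)
  simpa using this

lemma adj_det_pos {a d : ℤ} (ha : 0 < a) (hd : 0 < d) (b : ℤ) :
    (0 : ℝ) < ((d : ℤ) : ℝ) * ((a : ℤ) : ℝ) - ((-b : ℤ) : ℝ) * ((0 : ℤ) : ℝ) := by
  have : (0 : ℝ) < (d : ℝ) * (a : ℝ) := mul_pos (by exact_mod_cast hd) (by exact_mod_cast ha)
  simpa using this

lemma affS_mem_UHP {a d : ℤ} (ha : 0 < a) (hd : 0 < d) (b : ℤ) {z : ℂ} (hz : z ∈ UHP) :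
    affS a b d z ∈ UHP :=
  mob_mem_UHP (affS_det_pos ha hd b) hz

/-- Equality of Möbius maps with equal matrices. -/
lemma mob_congr {a b c d a' b' c' d' : ℝ} (ha : a = a') (hb : b = b') (hc : c = c')
    (hd : d = d') (z : ℂ) : mob a b c d z = mob a' b' c' d' z := by
  subst ha hb hc hd; rfl

/-- The coset identity `α g = g' α'` for Möbius maps. -/
lemma affS_mobS {a b d a' b' d' : ℤ} (ha : 0 < a) (hd : 0 < d) (ha' : 0 < a') (hd' : 0 < d')
    {g g' : SL(2, ℤ)}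
    (h00 : a * g 0 0 + b * g 1 0 = g' 0 0 * a')
    (h01 : a * g 0 1 + b * g 1 1 = g' 0 0 * b' + g' 0 1 * d')
    (h10 : d * g 1 0 = g' 1 0 * a')
    (h11 : d * g 1 1 = g' 1 0 * b' + g' 1 1 * d')
    {z : ℂ} (hz : z ∈ UHP) :
    affS a b d (mobS g z) = mobS g' (affS a' b' d' z) := by
  unfold affS mobS
  rw [mob_mob (affS_det_pos ha hd b) (det_S_pos g) hz,
    mob_mob (det_S_pos g') (affS_det_pos ha' hd' b') hz]
  apply mob_congr
  · have := congrArg (Int.cast : ℤ → ℝ) h00; push_cast at this ⊢; linarith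
  · have := congrArg (Int.cast : ℤ → ℝ) h01; push_cast at this ⊢; linarith
  · have := congrArg (Int.cast : ℤ → ℝ) h10; push_cast at this ⊢; linarith
  · have := congrArg (Int.cast : ℤ → ℝ) h11; push_cast at this ⊢; linarith

lemma polyAct_congr {m : ℕ} {a b c d a' b' c' d' : ℂ} (ha : a = a') (hb : b = b') (hc : c = c')
    (hd : d = d') (P : ℂ[X]) : polyAct m a b c d P = polyAct m a' b' c' d' P := by
  subst ha hb hc hd; rfl

/-- The coset identity `α g = g' α'` for the polynomial action: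
`g' ⋆ (adj(α) ⋆ P) = adj(α') ⋆ (g ⋆ P)`. -/
lemma actS_adjAct {m : ℕ} {a b d a' b' d' : ℤ} (ha : 0 < a) (hd : 0 < d) (ha' : 0 < a')
    (hd' : 0 < d') {g g' : SL(2, ℤ)}
    (h00 : a * g 0 0 + b * g 1 0 = g' 0 0 * a')
    (h01 : a * g 0 1 + b * g 1 1 = g' 0 0 * b' + g' 0 1 * d')
    (h10 : d * g 1 0 = g' 1 0 * a')
    (h11 : d * g 1 1 = g' 1 0 * b' + g' 1 1 * d')
    {P : ℂ[X]} (hP : P.natDegree ≤ m) :
    actS m g' (adjAct m a b d P) = adjAct m a' b' d' (actS m g P) := by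
  have hg := det_S_int g
  have hg' := det_S_int g'
  -- equality of determinants
  have hdet : a * d = a' * d' := by
    have e1 : (a * g 0 0 + b * g 1 0) * (d * g 1 1) - (a * g 0 1 + b * g 1 1) * (d * g 1 0)
        = a * d := by linear_combination (a * d) * hg
    have e2 : (g' 0 0 * a') * (g' 1 0 * b' + g' 1 1 * d')
        - (g' 0 0 * b' + g' 0 1 * d') * (g' 1 0 * a') = a' * d' := by
      linear_combination (a' * d') * hg'
    rw [← e1, ← e2, h00, h01, h10, h11]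
  have ha'0 : (a' : ℤ) ≠ 0 := ha'.ne'
  have hd'0 : (d' : ℤ) ≠ 0 := hd'.ne'
  have had0 : (a' * d' : ℤ) ≠ 0 := mul_ne_zero ha'0 hd'0
  -- the four adjugate identities
  have k00 : d * g' 0 0 - b * g' 1 0 = g 0 0 * d' := by
    apply mul_right_cancel₀ had0
    linear_combination (-(d * d')) * h00 + (b * d') * h10 + (d' * g 0 0) * hdet
  have k01 : d * g' 0 1 - b * g' 1 1 = -(g 0 0 * b') + g 0 1 * a' := by
    apply mul_right_cancel₀ had0
    linear_combination (d * b') * h00 - (d * a') * h01 - (b * b') * h10 + (b * a') * h11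
      + (a' * g 0 1 - b' * g 0 0) * hdet
  have k10 : a * g' 1 0 = g 1 0 * d' := by
    apply mul_right_cancel₀ had0
    linear_combination (-(a * d')) * h10 + (g 1 0 * d') * hdet
  have k11 : a * g' 1 1 = -(g 1 0 * b') + g 1 1 * a' := by
    apply mul_right_cancel₀ had0
    linear_combination (a * b') * h10 - (a * a') * h11 + (a' * g 1 1 - b' * g 1 0) * hdet
  unfold actS adjAct
  rw [polyAct_polyAct (adj_det_pos ha hd b) (det_S_pos g') hP,
    polyAct_polyAct (det_S_pos g) (adj_det_pos ha' hd' b') hP]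
  apply polyAct_congr
  · have := congrArg (Int.cast : ℤ → ℂ) k00; push_cast at this ⊢; linear_combination this
  · have := congrArg (Int.cast : ℤ → ℂ) k01; push_cast at this ⊢; linear_combination this
  · have := congrArg (Int.cast : ℤ → ℂ) k10; push_cast at this ⊢; linear_combination this
  · have := congrArg (Int.cast : ℤ → ℂ) k11; push_cast at this ⊢; linear_combination this

/-- **Abstract Hecke equivariance of the period cocycle.** -/
theorem per_hecke_abstract {ι : Type*} [Fintype ι] (aa bb dd : ι → ℤ) (haa : ∀ x, 0 < aa x)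
    (hdd : ∀ x, 0 < dd x) {m : ℕ} {f f' : ℍ → ℂ} (hf : GoodH f)
    (hT : ∀ P : ℂ[X], P.natDegree ≤ m → ∀ z ∈ UHP,
      nprim (pf P f') z =
        ∑ x, nprim (pf (adjAct m (aa x) (bb x) (dd x) P) f) (affS (aa x) (bb x) (dd x) z))
    (g : SL(2, ℤ)) (σ : Equiv.Perm ι) (g' : ι → SL(2, ℤ))
    (hinv : ∀ x, ∀ τ : ℍ, f (g' x • τ) = denS (g' x) τ ^ (m + 2) * f τ)
    (hmat : ∀ x,
      aa x * g 0 0 + bb x * g 1 0 = g' x 0 0 * aa (σ x) ∧
      aa x * g 0 1 + bb x * g 1 1 = g' x 0 0 * bb (σ x) + g' x 0 1 * dd (σ x) ∧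
      dd x * g 1 0 = g' x 1 0 * aa (σ x) ∧
      dd x * g 1 1 = g' x 1 0 * bb (σ x) + g' x 1 1 * dd (σ x))
    {P : ℂ[X]} (hP : P.natDegree ≤ m) :
    per f' m g P = ∑ x, per f m (g' x) (adjAct m (aa x) (bb x) (dd x) P) := by
  have hI : Complex.I ∈ UHP := I_mem_UHP
  have hgI : mobS g Complex.I ∈ UHP := mobS_mem_UHP g hI
  unfold per
  rw [hT P hP _ hgI, hT _ (natDegree_actS_le m g P) _ hI]
  -- rewrite each term of the first sum
  have key : ∀ x, nprim (pf (adjAct m (aa x) (bb x) (dd x) P) f)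
      (affS (aa x) (bb x) (dd x) (mobS g Complex.I)) =
      (nprim (pf (adjAct m (aa x) (bb x) (dd x) P) f) (mobS (g' x) Complex.I)
        - nprim (pf (actS m (g' x) (adjAct m (aa x) (bb x) (dd x) P)) f) Complex.I)
      + nprim (pf (adjAct m (aa (σ x)) (bb (σ x)) (dd (σ x)) (actS m g P)) f)
          (affS (aa (σ x)) (bb (σ x)) (dd (σ x)) Complex.I) := by
    intro x
    obtain ⟨h00, h01, h10, h11⟩ := hmat x
    have hw : affS (aa (σ x)) (bb (σ x)) (dd (σ x)) Complex.I ∈ UHP :=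
      affS_mem_UHP (haa _) (hdd _) _ hI
    rw [affS_mobS (haa x) (hdd x) (haa _) (hdd _) h00 h01 h10 h11 hI]
    have h1 := per_spec hf (hinv x) (natDegree_adjAct_le m (aa x) (bb x) (dd x) P) hw
    have h2 := actS_adjAct (haa x) (hdd x) (haa _) (hdd _) h00 h01 h10 h11 hP
    unfold per at h1
    rw [← h1, h2]
    ring
  rw [Finset.sum_congr rfl fun x _ => key x, Finset.sum_add_distrib,
    Equiv.sum_comp σ (fun x => nprim (pf (adjAct m (aa x) (bb x) (dd x) (actS m g P)) f)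
      (affS (aa x) (bb x) (dd x) Complex.I))]
  ring

end Fermat.Agent.S22

namespace Fermat.Agent.S22

/-! ### Index data of the Hecke representatives -/

/-- Entries of the representatives of `T_p`, indexed by `OnePoint (ZMod p)`:
`∞ ↦ [p, 0; 0, 1]`, `j ↦ [1, j; 0, p]`. -/
def tA (p : ℕ) (x : OnePoint (ZMod p)) : ℤ := Option.elim x (p : ℤ) (fun _ => 1)

/-- See `tA`. -/
def tB (p : ℕ) (x : OnePoint (ZMod p)) : ℤ := Option.elim x 0 (fun j => (j.val : ℤ))

/-- See `tA`. -/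
def tD (p : ℕ) (x : OnePoint (ZMod p)) : ℤ := Option.elim x 1 (fun _ => (p : ℤ))

/-- Entries of the representatives `[1, j; 0, p]` of `U_p`, indexed by `ZMod p`. -/
def uA (p : ℕ) (_ : ZMod p) : ℤ := 1

/-- See `uA`. -/
def uB (p : ℕ) (j : ZMod p) : ℤ := (j.val : ℤ)

/-- See `uA`. -/
def uD (p : ℕ) (_ : ZMod p) : ℤ := (p : ℤ)

@[simp] lemma tA_infty (p : ℕ) : tA p OnePoint.infty = (p : ℤ) := rfl

@[simp] lemma tA_coe (p : ℕ) (j : ZMod p) : tA p (j : OnePoint (ZMod p)) = 1 := rfl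

@[simp] lemma tB_infty (p : ℕ) : tB p OnePoint.infty = 0 := rfl

@[simp] lemma tB_coe (p : ℕ) (j : ZMod p) : tB p (j : OnePoint (ZMod p)) = (j.val : ℤ) := rfl

@[simp] lemma tD_infty (p : ℕ) : tD p OnePoint.infty = 1 := rfl

@[simp] lemma tD_coe (p : ℕ) (j : ZMod p) : tD p (j : OnePoint (ZMod p)) = (p : ℤ) := rfl

lemma tA_pos {p : ℕ} (hp : 0 < p) (x : OnePoint (ZMod p)) : 0 < tA p x := by
  cases x <;> simp [hp]

lemma tD_pos {p : ℕ} (hp : 0 < p) (x : OnePoint (ZMod p)) : 0 < tD p x := by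
  cases x <;> simp [hp]

lemma uA_pos (p : ℕ) (x : ZMod p) : 0 < uA p x := by simp [uA]

lemma uD_pos {p : ℕ} (hp : 0 < p) (x : ZMod p) : 0 < uD p x := by simp [uD, hp]

end Fermat.Agent.S22
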