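import Fermat.Agent.S22.Prim

/-!
# Normalised primitives on the upper half plane

Primitives of holomorphic functions with exponential decay at `i∞`, normalised so that
they tend to `0` along every vertical line.
-/

set_option autoImplicit false

namespace Fermat.Agent.S22

open Complex Filter Topology Set

/-- `h` decays exponentially as `Im z → ∞`, uniformly on vertical strips of bounded width. -/
def ExpDecayStrip (h : ℂ → ℂ) : Prop :=
  ∀ R : ℝ, ∃ C c A : ℝ, 0 ≤ C ∧ 0 < c ∧ 0 < A ∧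
    ∀ z : ℂ, |z.re| ≤ R → A ≤ z.im → ‖h z‖ ≤ C * Real.exp (-c * z.im)

/-- `G` is a primitive of `h` on the upper half plane, tending to `0` along vertical lines. -/
structure IsNP (h G : ℂ → ℂ) : Prop where
  hasDerivAt : ∀ z ∈ UHP, HasDerivAt G (h z) z
  tendsto : ∀ x : ℝ, Tendsto (fun t : ℝ => G (x + t * I)) atTop (𝓝 0)

lemma vert_mem_UHP {x t : ℝ} (ht : 0 < t) : (x : ℂ) + t * I ∈ UHP := by
  simp [UHP, ht]

lemma hasDerivAt_vert {G : ℂ → ℂ} {x t : ℝ} {d : ℂ} (hG : HasDerivAt G d (x + t * I)) :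
    HasDerivAt (fun s : ℝ => G (x + s * I)) (I * d) t := by
  have h1 : HasDerivAt (fun s : ℝ => (x : ℂ) + s * I) I t := by
    have := ((hasDerivAt_id t).ofReal_comp).mul_const I
    simpa using this.const_add (x : ℂ)
  have := HasDerivAt.scomp t hG h1
  simpa [Function.comp_def, smul_eq_mul] using this

lemma hasDerivAt_horiz {G : ℂ → ℂ} {x t : ℝ} {d : ℂ} (hG : HasDerivAt G d (x + t * I)) :
    HasDerivAt (fun s : ℝ => G (s + t * I)) d x := by
  have h1 : HasDerivAt (fun s : ℝ => (s : ℂ) + t * I) 1 x := by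
    have := ((hasDerivAt_id x).ofReal_comp)
    simpa using this.add_const ((t : ℂ) * I)
  have := HasDerivAt.scomp x hG h1
  simpa [Function.comp_def, smul_eq_mul] using this

lemma tendsto_exp_neg_mul_atTop {c : ℝ} (hc : 0 < c) :
    Tendsto (fun t : ℝ => Real.exp (-c * t)) atTop (𝓝 0) := by
  have := Real.tendsto_exp_neg_atTop_nhds_zero.comp (tendsto_id.const_mul_atTop hc)
  refine this.congr fun t => ?_
  simp [neg_mul]

lemma continuousOn_vert {h : ℂ → ℂ} (hh : ContinuousOn h UHP) (x : ℝ) :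
    ContinuousOn (fun t : ℝ => h (x + t * I)) (Ioi 0) := by
  apply hh.comp (by fun_prop)
  intro t ht
  exact vert_mem_UHP ht

/-- Existence of a vertical limit of any primitive of an exponentially decaying function. -/
lemma exists_vert_limit {h G₀ : ℂ → ℂ} (hh : ContinuousOn h UHP) (hd : ExpDecayStrip h)
    (hG₀ : ∀ z ∈ UHP, HasDerivAt G₀ (h z) z) (x : ℝ) :
    ∃ L : ℂ, Tendsto (fun t : ℝ => G₀ (x + t * I)) atTop (𝓝 L) := by
  obtain ⟨C, c, A, hC, hc, hA, hb⟩ := hd |x|
  refine ⟨_, MeasureTheory.tendsto_limUnder_of_hasDerivAt_of_integrableOn_Ioi (a := A)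
    (f' := fun t : ℝ => I * h (x + t * I)) ?_ ?_⟩
  · intro t ht
    exact hasDerivAt_vert (hG₀ _ (vert_mem_UHP (lt_trans hA ht)))
  · have hint : MeasureTheory.IntegrableOn (fun t : ℝ => C * Real.exp (-c * t)) (Ioi A) :=
      (exp_neg_integrableOn_Ioi A hc).const_mul C
    refine MeasureTheory.Integrable.mono' hint ?_ ?_
    · apply ContinuousOn.aestronglyMeasurable _ measurableSet_Ioi
      apply ContinuousOn.mul continuousOn_const
      exact (continuousOn_vert hh x).mono (fun t ht => lt_trans hA ht)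
    · refine (MeasureTheory.ae_restrict_iff' measurableSet_Ioi).mpr (Filter.Eventually.of_forall fun t ht => ?_)
      have := hb (x + t * I) (by simp) (by simpa using (le_of_lt ht))
      simpa using this

/-- The vertical limit of a primitive does not depend on the vertical line. -/
lemma vert_limit_indep {h G₀ : ℂ → ℂ} (hd : ExpDecayStrip h)
    (hG₀ : ∀ z ∈ UHP, HasDerivAt G₀ (h z) z) {x : ℝ} {L L' : ℂ}
    (hL : Tendsto (fun t : ℝ => G₀ (x + t * I)) atTop (𝓝 L))
    (hL' : Tendsto (fun t : ℝ => G₀ ((0 : ℝ) + t * I)) atTop (𝓝 L')) : L = L' := by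
  obtain ⟨C, c, A, hC, hc, hA, hb⟩ := hd |x|
  have hdiff : Tendsto (fun t : ℝ => G₀ (x + t * I) - G₀ ((0 : ℝ) + t * I)) atTop (𝓝 (L - L')) :=
    hL.sub hL'
  have hzero : Tendsto (fun t : ℝ => G₀ (x + t * I) - G₀ ((0 : ℝ) + t * I)) atTop (𝓝 0) := by
    apply squeeze_zero_norm' (a := fun t => C * Real.exp (-c * t) * |x|)
    · filter_upwards [eventually_ge_atTop A] with t ht
      have htpos : 0 < t := lt_of_lt_of_le hA ht
      have key := Convex.norm_image_sub_le_of_norm_hasDerivWithin_le (𝕜 := ℝ)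
        (f := fun s : ℝ => G₀ (s + t * I)) (f' := fun s : ℝ => h (s + t * I))
        (s := Icc (-|x|) |x|) (x := 0) (y := x) (C := C * Real.exp (-c * t))
        (fun s _ => (hasDerivAt_horiz (hG₀ _ (vert_mem_UHP htpos))).hasDerivWithinAt)
        (fun s hs => by
          have := hb (s + t * I) (by simpa using abs_le.mpr hs) (by simpa using ht)
          simpa using this)
        (convex_Icc _ _) (by simp) (by simp [neg_abs_le, le_abs_self])
      simpa using key
    · have := ((tendsto_exp_neg_mul_atTop hc).const_mul C).mul_const |x|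
      simpa using this
  exact sub_eq_zero.mp (tendsto_nhds_unique hdiff hzero)

/-- Existence of normalised primitives. -/
theorem exists_isNP {h : ℂ → ℂ} (hh : DifferentiableOn ℂ h UHP) (hd : ExpDecayStrip h) :
    ∃ G, IsNP h G := by
  obtain ⟨G₀, hG₀⟩ := exists_primitive_UHP hh
  obtain ⟨L₀, hL₀⟩ := exists_vert_limit hh.continuousOn hd hG₀ 0
  refine ⟨fun z => G₀ z - L₀, fun z hz => (hG₀ z hz).sub_const L₀, fun x => ?_⟩
  obtain ⟨L, hL⟩ := exists_vert_limit hh.continuousOn hd hG₀ x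
  have : L = L₀ := vert_limit_indep hd hG₀ hL hL₀
  subst this
  simpa using hL.sub_const L

/-- Uniqueness of normalised primitives. -/
theorem IsNP.unique {h G₁ G₂ : ℂ → ℂ} (h₁ : IsNP h G₁) (h₂ : IsNP h G₂) {z : ℂ} (hz : z ∈ UHP) :
    G₁ z = G₂ z := by
  have hconst : ∀ t : ℝ, 0 < t → G₁ z - G₂ z = G₁ ((0 : ℝ) + t * I) - G₂ ((0 : ℝ) + t * I) :=
    fun t ht => eqOn_of_hasDerivAt_UHP h₁.hasDerivAt h₂.hasDerivAt hz (vert_mem_UHP ht)
  have h0 : Tendsto (fun t : ℝ => G₁ ((0 : ℝ) + t * I) - G₂ ((0 : ℝ) + t * I)) atTop (𝓝 (0 - 0)) :=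
    (h₁.tendsto 0).sub (h₂.tendsto 0)
  have hc : Tendsto (fun _ : ℝ => G₁ z - G₂ z) atTop (𝓝 (0 - 0)) := by
    refine h0.congr' ?_
    filter_upwards [eventually_gt_atTop 0] with t ht
    exact (hconst t ht).symm
  have := tendsto_nhds_unique hc tendsto_const_nhds
  simpa [sub_eq_zero] using this.symm

lemma IsNP.add {h₁ h₂ G₁ G₂ : ℂ → ℂ} (H₁ : IsNP h₁ G₁) (H₂ : IsNP h₂ G₂) :
    IsNP (fun z => h₁ z + h₂ z) (fun z => G₁ z + G₂ z) :=
  ⟨fun z hz => (H₁.hasDerivAt z hz).add (H₂.hasDerivAt z hz),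
    fun x => by simpa using (H₁.tendsto x).add (H₂.tendsto x)⟩

lemma IsNP.const_mul {h G : ℂ → ℂ} (H : IsNP h G) (c : ℂ) :
    IsNP (fun z => c * h z) (fun z => c * G z) :=
  ⟨fun z hz => (H.hasDerivAt z hz).const_mul c,
    fun x => by simpa using (H.tendsto x).const_mul c⟩

lemma IsNP.zero : IsNP (fun _ => 0) (fun _ => 0) :=
  ⟨fun z _ => hasDerivAt_const z 0, fun _ => tendsto_const_nhds⟩

lemma IsNP.sum {ι : Type*} (s : Finset ι) {h G : ι → ℂ → ℂ} (H : ∀ i ∈ s, IsNP (h i) (G i)) :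
    IsNP (fun z => ∑ i ∈ s, h i z) (fun z => ∑ i ∈ s, G i z) := by
  classical
  induction s using Finset.induction_on with
  | empty => simpa using IsNP.zero
  | insert a s ha ih =>
    have h1 := (H a (Finset.mem_insert_self a s)).add
      (ih fun i hi => H i (Finset.mem_insert_of_mem hi))
    simpa [Finset.sum_insert ha] using h1

lemma IsNP.congr {h h' G : ℂ → ℂ} (H : IsNP h G) (hh : ∀ z ∈ UHP, h z = h' z) : IsNP h' G :=
  ⟨fun z hz => hh z hz ▸ H.hasDerivAt z hz, H.tendsto⟩

/-- Affine change of variable `z ↦ a z + b` with `a > 0`, `b` real. -/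
lemma IsNP.comp_affine {h G : ℂ → ℂ} (H : IsNP h G) {a : ℝ} (ha : 0 < a) (b : ℝ) :
    IsNP (fun z => (a : ℂ) * h (a * z + b)) (fun z => G (a * z + b)) := by
  refine ⟨fun z hz => ?_, fun x => ?_⟩
  · have hmem : (a : ℂ) * z + b ∈ UHP := by
      simp only [UHP, Set.mem_ofPred_eq, add_im, mul_im, ofReal_re, ofReal_im, zero_mul, add_zero]
      exact mul_pos ha hz
    have h1 : HasDerivAt (fun z : ℂ => (a : ℂ) * z + b) (a : ℂ) z := by
      simpa using ((hasDerivAt_id z).const_mul (a : ℂ)).add_const (b : ℂ)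
    have := HasDerivAt.comp z (H.hasDerivAt _ hmem) h1
    simpa [Function.comp_def, mul_comm] using this
  · have h1 := (H.tendsto (a * x + b)).comp (tendsto_id.const_mul_atTop ha)
    refine h1.congr fun t => ?_
    simp only [Function.comp_def, id]
    congr 1
    push_cast
    ring

/-- Normalised primitives of exponentially decaying functions decay exponentially. -/
theorem IsNP.expDecayStrip {h G : ℂ → ℂ} (H : IsNP h G) (hd : ExpDecayStrip h) :
    ExpDecayStrip G := by
  intro R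
  obtain ⟨C, c, A, hC, hc, hA, hb⟩ := hd R
  refine ⟨C / c, c, A, div_nonneg hC hc.le, hc, hA, fun z hzR hzA => ?_⟩
  set x := z.re with hx
  set y := z.im with hy
  have hz : z = x + y * I := (Complex.re_add_im z).symm
  have hypos : 0 < y := lt_of_lt_of_le hA hzA
  -- bound on `[y, T]`
  have hbound : ∀ T : ℝ, y ≤ T → ‖G (x + T * I) - G (x + y * I)‖ ≤ C / c * Real.exp (-c * y) := by
    intro T hT
    have key := image_norm_le_of_norm_deriv_right_le_deriv_boundary
      (f := fun t : ℝ => G (x + t * I) - G (x + y * I))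
      (f' := fun t : ℝ => I * h (x + t * I)) (a := y) (b := T)
      (B := fun t => C / c * (Real.exp (-c * y) - Real.exp (-c * t)))
      (B' := fun t => C * Real.exp (-c * t)) ?_ ?_ ?_ ?_ ?_ (right_mem_Icc.mpr hT)
    · refine key.trans ?_
      have : 0 ≤ C / c * Real.exp (-c * T) := mul_nonneg (div_nonneg hC hc.le) (Real.exp_pos _).le
      simp only [mul_sub]
      linarith
    · intro t ht
      have htpos : 0 < t := lt_of_lt_of_le hypos ht.1
      exact (((hasDerivAt_vert (H.hasDerivAt _ (vert_mem_UHP htpos))).sub_const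
        _).continuousAt).continuousWithinAt
    · intro t ht
      have htpos : 0 < t := lt_of_lt_of_le hypos ht.1
      exact ((hasDerivAt_vert (H.hasDerivAt _ (vert_mem_UHP htpos))).sub_const _).hasDerivWithinAt
    · simp
    · intro t
      have h1 : HasDerivAt (fun t : ℝ => Real.exp (-c * t)) (Real.exp (-c * t) * (-c)) t := by
        have := ((hasDerivAt_id t).const_mul (-c)).exp
        simpa using this
      have h2 := (h1.const_sub (Real.exp (-c * y))).const_mul (C / c)
      refine h2.congr_deriv ?_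
      field_simp
    · intro t ht
      have := hb (x + t * I) (by simpa [hx] using hzR)
        (by simpa using hzA.trans ht.1)
      simpa using this
  have hlim : Tendsto (fun T : ℝ => ‖G (x + T * I) - G (x + y * I)‖) atTop
      (𝓝 ‖(0 : ℂ) - G (x + y * I)‖) :=
    ((H.tendsto x).sub_const _).norm
  have := le_of_tendsto hlim (by
    filter_upwards [eventually_ge_atTop y] with T hT using hbound T hT)
  rw [hz]
  simpa using this

lemma ExpDecayStrip.add {h₁ h₂ : ℂ → ℂ} (H₁ : ExpDecayStrip h₁) (H₂ : ExpDecayStrip h₂) :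
    ExpDecayStrip (fun z => h₁ z + h₂ z) := by
  intro R
  obtain ⟨C₁, c₁, A₁, hC₁, hc₁, hA₁, hb₁⟩ := H₁ R
  obtain ⟨C₂, c₂, A₂, hC₂, hc₂, hA₂, hb₂⟩ := H₂ R
  refine ⟨C₁ + C₂, min c₁ c₂, max A₁ A₂, add_nonneg hC₁ hC₂, lt_min hc₁ hc₂,
    lt_max_of_lt_left hA₁, fun z hzR hzA => ?_⟩
  have hy : 0 ≤ z.im := (lt_of_lt_of_le (lt_max_of_lt_left hA₁) hzA).le
  have e₁ : Real.exp (-c₁ * z.im) ≤ Real.exp (-(min c₁ c₂) * z.im) := by
    apply Real.exp_le_exp.mpr
    have : min c₁ c₂ * z.im ≤ c₁ * z.im := mul_le_mul_of_nonneg_right (min_le_left _ _) hy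
    linarith
  have e₂ : Real.exp (-c₂ * z.im) ≤ Real.exp (-(min c₁ c₂) * z.im) := by
    apply Real.exp_le_exp.mpr
    have : min c₁ c₂ * z.im ≤ c₂ * z.im := mul_le_mul_of_nonneg_right (min_le_right _ _) hy
    linarith
  calc ‖h₁ z + h₂ z‖ ≤ ‖h₁ z‖ + ‖h₂ z‖ := norm_add_le _ _
    _ ≤ C₁ * Real.exp (-c₁ * z.im) + C₂ * Real.exp (-c₂ * z.im) :=
        add_le_add (hb₁ z hzR ((le_max_left _ _).trans hzA))
          (hb₂ z hzR ((le_max_right _ _).trans hzA))
    _ ≤ C₁ * Real.exp (-(min c₁ c₂) * z.im) + C₂ * Real.exp (-(min c₁ c₂) * z.im) :=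
        add_le_add (mul_le_mul_of_nonneg_left e₁ hC₁) (mul_le_mul_of_nonneg_left e₂ hC₂)
    _ = (C₁ + C₂) * Real.exp (-(min c₁ c₂) * z.im) := by ring

lemma ExpDecayStrip.const_mul {h : ℂ → ℂ} (H : ExpDecayStrip h) (a : ℂ) :
    ExpDecayStrip (fun z => a * h z) := by
  intro R
  obtain ⟨C, c, A, hC, hc, hA, hb⟩ := H R
  refine ⟨‖a‖ * C, c, A, mul_nonneg (norm_nonneg _) hC, hc, hA, fun z hzR hzA => ?_⟩
  rw [norm_mul, mul_assoc]
  exact mul_le_mul_of_nonneg_left (hb z hzR hzA) (norm_nonneg _)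

lemma ExpDecayStrip.zero : ExpDecayStrip (fun _ => 0) := by
  intro R
  exact ⟨0, 1, 1, le_rfl, one_pos, one_pos, fun z _ _ => by simp⟩

lemma ExpDecayStrip.sum {ι : Type*} (s : Finset ι) {h : ι → ℂ → ℂ}
    (H : ∀ i ∈ s, ExpDecayStrip (h i)) : ExpDecayStrip (fun z => ∑ i ∈ s, h i z) := by
  classical
  induction s using Finset.induction_on with
  | empty => simpa using ExpDecayStrip.zero
  | insert a s ha ih =>
    have h1 := (H a (Finset.mem_insert_self a s)).add
      (ih fun i hi => H i (Finset.mem_insert_of_mem hi))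
    simpa [Finset.sum_insert ha] using h1

/-- Multiplying by `z` preserves exponential decay on strips. -/
lemma ExpDecayStrip.id_mul {h : ℂ → ℂ} (H : ExpDecayStrip h) :
    ExpDecayStrip (fun z => z * h z) := by
  intro R
  obtain ⟨C, c, A, hC, hc, hA, hb⟩ := H R
  refine ⟨C * (|R| + 2 / c), c / 2, A, mul_nonneg hC (by positivity), by positivity, hA,
    fun z hzR hzA => ?_⟩
  have hy : 0 < z.im := lt_of_lt_of_le hA hzA
  set u := c / 2 * z.im with hu
  have hupos : 0 < u := by positivity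
  have hnorm : ‖z‖ ≤ |R| + z.im := by
    calc ‖z‖ ≤ |z.re| + |z.im| := Complex.norm_le_abs_re_add_abs_im z
      _ ≤ |R| + z.im := by
          rw [abs_of_pos hy]
          have : |z.re| ≤ |R| := hzR.trans (le_abs_self R)
          linarith
  have hexp : Real.exp (-c * z.im) = Real.exp (-u) * Real.exp (-u) := by
    rw [← Real.exp_add]; congr 1; rw [hu]; ring
  have hu1 : u * Real.exp (-u) ≤ 1 := by
    have h1 : u ≤ Real.exp u := by linarith [Real.add_one_le_exp u]
    have h2 : Real.exp (-u) * Real.exp u = 1 := by rw [← Real.exp_add]; simp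
    calc u * Real.exp (-u) ≤ Real.exp u * Real.exp (-u) :=
          mul_le_mul_of_nonneg_right h1 (Real.exp_pos _).le
      _ = 1 := by rw [mul_comm]; exact h2
  have hexp1 : Real.exp (-u) ≤ 1 := by
    apply Real.exp_le_one_iff.mpr; linarith
  have hkey : (|R| + z.im) * Real.exp (-u) ≤ |R| + 2 / c := by
    have hz2 : z.im = 2 / c * u := by rw [hu]; field_simp
    have : z.im * Real.exp (-u) ≤ 2 / c := by
      rw [hz2, mul_assoc]
      calc 2 / c * (u * Real.exp (-u)) ≤ 2 / c * 1 :=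
            mul_le_mul_of_nonneg_left hu1 (by positivity)
        _ = 2 / c := mul_one _
    have h3 : |R| * Real.exp (-u) ≤ |R| := by
      calc |R| * Real.exp (-u) ≤ |R| * 1 := mul_le_mul_of_nonneg_left hexp1 (abs_nonneg _)
        _ = |R| := mul_one _
    linarith [add_mul |R| z.im (Real.exp (-u))]
  have hu' : -(c / 2) * z.im = -u := by rw [hu]; ring
  rw [norm_mul, hu']
  calc ‖z‖ * ‖h z‖ ≤ (|R| + z.im) * (C * Real.exp (-c * z.im)) :=
        mul_le_mul hnorm (hb z hzR hzA) (norm_nonneg _) (by positivity)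
    _ = C * ((|R| + z.im) * Real.exp (-u)) * Real.exp (-u) := by rw [hexp]; ring
    _ ≤ C * (|R| + 2 / c) * Real.exp (-u) := by
        apply mul_le_mul_of_nonneg_right _ (Real.exp_pos _).le
        exact mul_le_mul_of_nonneg_left hkey hC

lemma ExpDecayStrip.pow_mul {h : ℂ → ℂ} (H : ExpDecayStrip h) (i : ℕ) :
    ExpDecayStrip (fun z => z ^ i * h z) := by
  induction i with
  | zero => simpa using H
  | succ i ih =>
    have := ih.id_mul
    refine fun R => ?_
    obtain ⟨C, c, A, hC, hc, hA, hb⟩ := this R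
    exact ⟨C, c, A, hC, hc, hA, fun z hzR hzA => by
      have := hb z hzR hzA
      simpa [pow_succ, mul_assoc, mul_comm, mul_left_comm] using this⟩

lemma ExpDecayStrip.polynomial_mul {h : ℂ → ℂ} (H : ExpDecayStrip h) (P : Polynomial ℂ) :
    ExpDecayStrip (fun z => P.eval z * h z) := by
  have : (fun z => P.eval z * h z) =
      fun z => ∑ i ∈ P.support, P.coeff i * (z ^ i * h z) := by
    funext z
    rw [Polynomial.eval_eq_sum, Polynomial.sum, Finset.sum_mul]
    exact Finset.sum_congr rfl fun i _ => by ring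
  rw [this]
  exact ExpDecayStrip.sum _ fun i _ => (H.pow_mul i).const_mul _

/-- Affine substitution preserves exponential decay on strips. -/
lemma ExpDecayStrip.comp_affine {h : ℂ → ℂ} (H : ExpDecayStrip h) {a : ℝ} (ha : 0 < a) (b : ℝ) :
    ExpDecayStrip (fun z => h (a * z + b)) := by
  intro R
  obtain ⟨C, c, A, hC, hc, hA, hb⟩ := H (a * |R| + |b|)
  refine ⟨C, c * a, A / a, hC, mul_pos hc ha, div_pos hA ha, fun z hzR hzA => ?_⟩
  have hre : ((a : ℂ) * z + b).re = a * z.re + b := by simp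
  have him : ((a : ℂ) * z + b).im = a * z.im := by simp
  have h1 : |((a : ℂ) * z + b).re| ≤ a * |R| + |b| := by
    rw [hre]
    calc |a * z.re + b| ≤ |a * z.re| + |b| := abs_add_le _ _
      _ = a * |z.re| + |b| := by rw [abs_mul, abs_of_pos ha]
      _ ≤ a * |R| + |b| := by
          have : |z.re| ≤ |R| := hzR.trans (le_abs_self R)
          have := mul_le_mul_of_nonneg_left this ha.le
          linarith
  have h2 : A ≤ ((a : ℂ) * z + b).im := by
    rw [him]
    have := (div_le_iff₀ ha).mp hzA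
    linarith
  have := hb _ h1 h2
  rw [him] at this
  convert this using 3
  ring

/-- The class of functions for which normalised primitives exist. -/
def Good (h : ℂ → ℂ) : Prop := DifferentiableOn ℂ h UHP ∧ ExpDecayStrip h

open Classical in
/-- A choice of normalised primitive (junk value `0` for bad functions). -/
noncomputable def nprim (h : ℂ → ℂ) : ℂ → ℂ :=
  if hyp : Good h then (exists_isNP hyp.1 hyp.2).choose else 0

lemma isNP_nprim {h : ℂ → ℂ} (hh : Good h) : IsNP h (nprim h) := by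
  unfold nprim
  rw [dif_pos hh]
  exact (exists_isNP hh.1 hh.2).choose_spec

lemma IsNP.eq_nprim {h G : ℂ → ℂ} (H : IsNP h G) (hh : Good h) {z : ℂ} (hz : z ∈ UHP) :
    G z = nprim h z :=
  H.unique (isNP_nprim hh) hz

lemma Good.add {h₁ h₂ : ℂ → ℂ} (H₁ : Good h₁) (H₂ : Good h₂) : Good (fun z => h₁ z + h₂ z) :=
  ⟨H₁.1.add H₂.1, H₁.2.add H₂.2⟩

lemma Good.const_mul {h : ℂ → ℂ} (H : Good h) (a : ℂ) : Good (fun z => a * h z) :=
  ⟨H.1.const_mul a, H.2.const_mul a⟩

lemma Good.polynomial_mul {h : ℂ → ℂ} (H : Good h) (P : Polynomial ℂ) :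
    Good (fun z => P.eval z * h z) :=
  ⟨(P.differentiable.differentiableOn).mul H.1, H.2.polynomial_mul P⟩

lemma Good.sum {ι : Type*} (s : Finset ι) {h : ι → ℂ → ℂ} (H : ∀ i ∈ s, Good (h i)) :
    Good (fun z => ∑ i ∈ s, h i z) :=
  ⟨DifferentiableOn.fun_sum fun i hi => (H i hi).1, ExpDecayStrip.sum s fun i hi => (H i hi).2⟩

lemma Good.nprim {h : ℂ → ℂ} (H : Good h) : Good (nprim h) :=
  ⟨fun z hz => ((isNP_nprim H).hasDerivAt z hz).differentiableAt.differentiableWithinAt,
    (isNP_nprim H).expDecayStrip H.2⟩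

lemma Good.congr {h h' : ℂ → ℂ} (H : Good h) (hh : ∀ z ∈ UHP, h z = h' z) : Good h' := by
  refine ⟨H.1.congr fun z hz => (hh z hz).symm, fun R => ?_⟩
  obtain ⟨C, c, A, hC, hc, hA, hb⟩ := H.2 R
  exact ⟨C, c, A, hC, hc, hA, fun z hzR hzA => by
    rw [← hh z (lt_of_lt_of_le hA hzA)]; exact hb z hzR hzA⟩

end Fermat.Agent.S22
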