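import Fermat.Agent.S22.Glue
import Fermat.Prelude.Def_CuspForm_HeckeAlgebra
import Fermat.Prelude.Thm_CongruenceSubgroup_one_mem_strictPeriods_Gamma0

/-!
# The period cocycle of a cusp form, normalised at the cusp `∞`
-/

set_option autoImplicit false

namespace Fermat.Agent.S22

open UpperHalfPlane Complex Polynomial CongruenceSubgroup

open scoped MatrixGroups ModularForm

/-- The period of `f` along `g`, against the polynomial `P` (of degree `≤ m`):
`∫_{∞}^{g ∞} f(z) P(z) dz`, defined through normalised primitives. -/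
noncomputable def per (f : ℍ → ℂ) (m : ℕ) (g : SL(2, ℤ)) (P : ℂ[X]) : ℂ :=
  nprim (pf P f) (mobS g Complex.I) - nprim (pf (actS m g P) f) Complex.I

/-- Constancy lemma: if `f (g τ) = (cτ+d)^(m+2) f' τ`, then
`z ↦ G_{f,P}(g z) - G_{f', g⋆P}(z)` is constant on the upper half plane. -/
theorem transl_const {m : ℕ} {f f' : ℍ → ℂ} (hf : GoodH f) (hf' : GoodH f') (g : SL(2, ℤ))
    (hslash : ∀ τ : ℍ, f (g • τ) = denS g τ ^ (m + 2) * f' τ)
    {P : ℂ[X]} (hP : P.natDegree ≤ m) {z w : ℂ} (hz : z ∈ UHP) (hw : w ∈ UHP) :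
    nprim (pf P f) (mobS g z) - nprim (pf (actS m g P) f') z =
      nprim (pf P f) (mobS g w) - nprim (pf (actS m g P) f') w := by
  have h1 := isNP_nprim (hf.good_pf P)
  have h2 := isNP_nprim (hf'.good_pf (actS m g P))
  have hd : ∀ x ∈ UHP, HasDerivAt
      (fun z => nprim (pf P f) (mobS g z) - nprim (pf (actS m g P) f') z) 0 x := by
    intro x hx
    have hmem := mobS_mem_UHP g hx
    have hc := HasDerivAt.comp x (h1.hasDerivAt _ hmem) (hasDerivAt_mobS g hx)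
    have hs := hc.sub (h2.hasDerivAt x hx)
    refine hs.congr_deriv ?_
    have hden := denS_ne_zero g hx
    have e1 : toC f (mobS g x) = denS g x ^ (m + 2) * toC f' x := by
      rw [toC_apply f hmem, toC_apply f' hx]
      have := hslash ⟨x, hx⟩
      rw [smul_eq_mk_mobS] at this
      exact this
    simp only [pf, e1, eval_actS g hP hx]
    field_simp
    ring
  exact const_of_hasDerivAt_zero_UHP hd hz hw

/-- The defining property of `per` for functions invariant under `g`. -/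
theorem per_spec {m : ℕ} {f : ℍ → ℂ} (hf : GoodH f) {g : SL(2, ℤ)}
    (hinv : ∀ τ : ℍ, f (g • τ) = denS g τ ^ (m + 2) * f τ)
    {P : ℂ[X]} (hP : P.natDegree ≤ m) {z : ℂ} (hz : z ∈ UHP) :
    nprim (pf P f) (mobS g z) - nprim (pf (actS m g P) f) z = per f m g P :=
  transl_const hf hf g hinv hP hz I_mem_UHP

section linearity

variable {f f₁ f₂ : ℍ → ℂ}

lemma pf_add_poly (P Q : ℂ[X]) (f : ℍ → ℂ) :
    pf (P + Q) f = fun z => pf P f z + pf Q f z := by
  funext z; simp [pf, add_mul]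

lemma pf_C_mul_poly (c : ℂ) (P : ℂ[X]) (f : ℍ → ℂ) :
    pf (C c * P) f = fun z => c * pf P f z := by
  funext z; simp [pf, mul_assoc]

lemma pf_add_fun (P : ℂ[X]) (f₁ f₂ : ℍ → ℂ) :
    pf P (f₁ + f₂) = fun z => pf P f₁ z + pf P f₂ z := by
  funext z; simp [pf, toC, mul_add]

lemma pf_smul_fun (P : ℂ[X]) (c : ℂ) (f : ℍ → ℂ) :
    pf P (c • f) = fun z => c * pf P f z := by
  funext z; simp [pf, toC]; ring

lemma nprim_pf_add_poly (hf : GoodH f) (P Q : ℂ[X]) {z : ℂ} (hz : z ∈ UHP) :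
    nprim (pf (P + Q) f) z = nprim (pf P f) z + nprim (pf Q f) z := by
  have h := (isNP_nprim (hf.good_pf P)).add (isNP_nprim (hf.good_pf Q))
  rw [← pf_add_poly] at h
  exact (h.eq_nprim (hf.good_pf _) hz).symm

lemma nprim_pf_C_mul_poly (hf : GoodH f) (c : ℂ) (P : ℂ[X]) {z : ℂ} (hz : z ∈ UHP) :
    nprim (pf (C c * P) f) z = c * nprim (pf P f) z := by
  have h := (isNP_nprim (hf.good_pf P)).const_mul c
  rw [← pf_C_mul_poly] at h
  exact (h.eq_nprim (hf.good_pf _) hz).symm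

lemma nprim_pf_add_fun (h₁ : GoodH f₁) (h₂ : GoodH f₂) (P : ℂ[X]) {z : ℂ} (hz : z ∈ UHP) :
    nprim (pf P (f₁ + f₂)) z = nprim (pf P f₁) z + nprim (pf P f₂) z := by
  have h := (isNP_nprim (h₁.good_pf P)).add (isNP_nprim (h₂.good_pf P))
  rw [← pf_add_fun] at h
  exact (h.eq_nprim ((h₁.add h₂).good_pf _) hz).symm

lemma nprim_pf_smul_fun (hf : GoodH f) (c : ℂ) (P : ℂ[X]) {z : ℂ} (hz : z ∈ UHP) :
    nprim (pf P (c • f)) z = c * nprim (pf P f) z := by
  have h := (isNP_nprim (hf.good_pf P)).const_mul c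
  rw [← pf_smul_fun] at h
  exact (h.eq_nprim ((hf.const_smul c).good_pf _) hz).symm

lemma nprim_pf_sum_poly (hf : GoodH f) {ι : Type*} (s : Finset ι) (P : ι → ℂ[X]) {z : ℂ}
    (hz : z ∈ UHP) :
    nprim (pf (∑ i ∈ s, P i) f) z = ∑ i ∈ s, nprim (pf (P i) f) z := by
  have h := IsNP.sum s (h := fun i => pf (P i) f) (G := fun i => nprim (pf (P i) f))
    (fun i _ => isNP_nprim (hf.good_pf (P i)))
  have e : (fun z => ∑ i ∈ s, pf (P i) f z) = pf (∑ i ∈ s, P i) f := by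
    funext z; simp [pf, eval_finsetSum, Finset.sum_mul]
  rw [e] at h
  exact (h.eq_nprim (hf.good_pf _) hz).symm

lemma per_add_poly {m : ℕ} (hf : GoodH f) (g : SL(2, ℤ)) (P Q : ℂ[X]) :
    per f m g (P + Q) = per f m g P + per f m g Q := by
  simp only [per, actS_add, nprim_pf_add_poly hf _ _ (mobS_mem_UHP g I_mem_UHP),
    nprim_pf_add_poly hf _ _ I_mem_UHP]
  ring

lemma per_C_mul_poly {m : ℕ} (hf : GoodH f) (g : SL(2, ℤ)) (c : ℂ) (P : ℂ[X]) :
    per f m g (C c * P) = c * per f m g P := by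
  simp only [per, actS_C_mul, nprim_pf_C_mul_poly hf _ _ (mobS_mem_UHP g I_mem_UHP),
    nprim_pf_C_mul_poly hf _ _ I_mem_UHP]
  ring

lemma per_zero_poly {m : ℕ} (hf : GoodH f) (g : SL(2, ℤ)) : per f m g 0 = 0 := by
  have := per_C_mul_poly (m := m) hf g 0 0
  simpa using this

lemma per_sum_poly {m : ℕ} (hf : GoodH f) (g : SL(2, ℤ)) {ι : Type*} (s : Finset ι)
    (P : ι → ℂ[X]) : per f m g (∑ i ∈ s, P i) = ∑ i ∈ s, per f m g (P i) := by
  classical
  induction s using Finset.induction_on with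
  | empty => simpa using per_zero_poly hf g
  | insert a s ha ih => rw [Finset.sum_insert ha, Finset.sum_insert ha, per_add_poly hf, ih]

lemma per_add_fun {m : ℕ} (h₁ : GoodH f₁) (h₂ : GoodH f₂) (g : SL(2, ℤ)) (P : ℂ[X]) :
    per (f₁ + f₂) m g P = per f₁ m g P + per f₂ m g P := by
  simp only [per, nprim_pf_add_fun h₁ h₂ _ (mobS_mem_UHP g I_mem_UHP),
    nprim_pf_add_fun h₁ h₂ _ I_mem_UHP]
  ring

lemma per_smul_fun {m : ℕ} (hf : GoodH f) (c : ℂ) (g : SL(2, ℤ)) (P : ℂ[X]) :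
    per (c • f) m g P = c * per f m g P := by
  simp only [per, nprim_pf_smul_fun hf _ _ (mobS_mem_UHP g I_mem_UHP),
    nprim_pf_smul_fun hf _ _ I_mem_UHP]
  ring

end linearity

/-- `per f m 1 P = 0`. -/
theorem per_one {m : ℕ} (f : ℍ → ℂ) {P : ℂ[X]} (hP : P.natDegree ≤ m) : per f m 1 P = 0 := by
  simp [per, mobS_one, actS_one hP]

/-- The cocycle relation. -/
theorem per_mul {m : ℕ} {f : ℍ → ℂ} (hf : GoodH f) {g : SL(2, ℤ)}
    (hinv : ∀ τ : ℍ, f (g • τ) = denS g τ ^ (m + 2) * f τ) (h : SL(2, ℤ))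
    {P : ℂ[X]} (hP : P.natDegree ≤ m) :
    per f m (g * h) P = per f m g P + per f m h (actS m g P) := by
  have hw : mobS h Complex.I ∈ UHP := mobS_mem_UHP h I_mem_UHP
  have h1 := per_spec hf hinv hP hw
  unfold per at h1 ⊢
  rw [mobS_mul g h I_mem_UHP, actS_mul g h hP, ← h1]
  ring

section cuspForms

variable {N : ℕ}

/-- Elements of `Γ₀(N)` act on weight `k` cusp forms by the automorphy factor. -/
lemma cuspForm_smul_eq {k : ℤ} (f : CuspForm (Gamma0 N) k) {g : SL(2, ℤ)} (hg : g ∈ Gamma0 N)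
    (τ : ℍ) : f (g • τ) = denS g τ ^ k * f τ := by
  have hmem : Matrix.SpecialLinearGroup.mapGL ℝ g ∈
      ((Gamma0 N : Subgroup SL(2, ℤ)) : Subgroup (GL (Fin 2) ℝ)) :=
    Subgroup.mem_map_of_mem _ hg
  have := SlashInvariantForm.slash_action_eqn'' f hmem τ
  have e : (Matrix.SpecialLinearGroup.mapGL ℝ g) • τ = g • τ := rfl
  rw [e] at this
  rw [this]
  simp [denom, denS]

lemma cuspForm_smul_eq' {m : ℕ} (f : CuspForm (Gamma0 N) ((m : ℤ) + 2)) {g : SL(2, ℤ)}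
    (hg : g ∈ Gamma0 N) (τ : ℍ) : f (g • τ) = denS g τ ^ (m + 2) * f τ := by
  have := cuspForm_smul_eq f hg τ
  rw [this]
  congr 1

lemma goodH_cuspForm {k : ℤ} (f : CuspForm (Gamma0 N) k) : GoodH (f : ℍ → ℂ) :=
  goodH_of_cuspForm f one_pos (CongruenceSubgroup.one_mem_strictPeriods_Gamma0 N)

/-- The period functional `f ↦ per f m g P` on cusp forms of weight `m + 2`. -/
noncomputable def perFun (N m : ℕ) (g : SL(2, ℤ)) (P : ℂ[X]) :
    CuspForm (Gamma0 N) ((m : ℤ) + 2) →ₗ[ℂ] ℂ where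
  toFun f := per (f : ℍ → ℂ) m g P
  map_add' f₁ f₂ := by
    rw [FunLike.coe_add]
    exact per_add_fun (goodH_cuspForm f₁) (goodH_cuspForm f₂) g P
  map_smul' c f := by
    have : ((c • f : CuspForm (Gamma0 N) ((m : ℤ) + 2)) : ℍ → ℂ) = c • (f : ℍ → ℂ) := by
      funext τ; rfl
    rw [this]
    exact per_smul_fun (goodH_cuspForm f) c g P

@[simp] lemma perFun_apply (N m : ℕ) (g : SL(2, ℤ)) (P : ℂ[X])
    (f : CuspForm (Gamma0 N) ((m : ℤ) + 2)) : perFun N m g P f = per (f : ℍ → ℂ) m g P := rfl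

/-- The period lattice. -/
noncomputable def perLattice (N m : ℕ) : Submodule ℤ (CuspForm (Gamma0 N) ((m : ℤ) + 2) →ₗ[ℂ] ℂ) :=
  Submodule.span ℤ {φ | ∃ g ∈ Gamma0 N, ∃ P ∈ IntPoly m, φ = perFun N m g P}

lemma perFun_mem_perLattice {m : ℕ} {g : SL(2, ℤ)} (hg : g ∈ Gamma0 N) {P : ℂ[X]}
    (hP : P ∈ IntPoly m) : perFun N m g P ∈ perLattice N m :=
  Submodule.subset_span ⟨g, hg, P, hP, rfl⟩

lemma perFun_one {m : ℕ} {P : ℂ[X]} (hP : P.natDegree ≤ m) : perFun N m 1 P = 0 := by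
  ext f; simp [per_one _ hP]

lemma perFun_mul {m : ℕ} {g : SL(2, ℤ)} (hg : g ∈ Gamma0 N) (h : SL(2, ℤ)) {P : ℂ[X]}
    (hP : P.natDegree ≤ m) :
    perFun N m (g * h) P = perFun N m g P + perFun N m h (actS m g P) := by
  ext f
  simp only [perFun_apply, LinearMap.add_apply]
  exact per_mul (goodH_cuspForm f) (cuspForm_smul_eq' f hg) h hP

lemma perFun_add_poly {m : ℕ} (g : SL(2, ℤ)) (P Q : ℂ[X]) :
    perFun N m g (P + Q) = perFun N m g P + perFun N m g Q := by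
  ext f
  simp only [perFun_apply, LinearMap.add_apply]
  exact per_add_poly (goodH_cuspForm f) g P Q

lemma perFun_C_mul_poly {m : ℕ} (g : SL(2, ℤ)) (c : ℂ) (P : ℂ[X]) :
    perFun N m g (C c * P) = c • perFun N m g P := by
  ext f
  simp only [perFun_apply, LinearMap.smul_apply, smul_eq_mul]
  exact per_C_mul_poly (goodH_cuspForm f) g c P

lemma perFun_sum_poly {m : ℕ} (g : SL(2, ℤ)) {ι : Type*} (s : Finset ι) (P : ι → ℂ[X]) :
    perFun N m g (∑ i ∈ s, P i) = ∑ i ∈ s, perFun N m g (P i) := by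
  ext f
  simp only [perFun_apply, LinearMap.coe_sum, Finset.sum_apply]
  exact per_sum_poly (goodH_cuspForm f) g s P

end cuspForms

end Fermat.Agent.S22
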