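import Mathlib

/-!
# Primitives of holomorphic functions on the upper half plane
-/

set_option autoImplicit false

namespace Fermat.Agent.S22

open Complex Filter Topology Set

/-- The open upper half plane as a subset of `ℂ`. -/
def UHP : Set ℂ := {z : ℂ | 0 < z.im}

lemma mem_UHP {z : ℂ} : z ∈ UHP ↔ 0 < z.im := Iff.rfl

lemma isOpen_UHP : IsOpen UHP := isOpen_lt continuous_const Complex.continuous_im

lemma convex_UHP : Convex ℝ UHP := by
  intro x hx y hy a b ha hb hab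
  simp only [UHP, Set.mem_ofPred_eq, add_im, smul_im, smul_eq_mul] at *
  rcases ha.lt_or_eq with ha' | rfl
  · have : 0 < a * x.im := mul_pos ha' hx
    have : 0 ≤ b * y.im := mul_nonneg hb hy.le
    linarith
  · simp at hab; subst hab; simpa using hy

lemma isPreconnected_UHP : IsPreconnected UHP := convex_UHP.isPreconnected

lemma I_mem_UHP : Complex.I ∈ UHP := by simp [UHP]

lemma ball_subset_UHP (R : ℝ) : Metric.ball ((R : ℂ) * I) R ⊆ UHP := by
  intro z hz
  rw [Metric.mem_ball, Complex.dist_eq] at hz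
  have h1 := Complex.abs_im_le_norm (z - R * I)
  simp only [sub_im, mul_im, ofReal_re, I_im, mul_one, ofReal_im, I_re, mul_zero, add_zero] at h1
  have h2 := abs_lt.mp (lt_of_le_of_lt h1 hz)
  show 0 < z.im
  linarith [h2.1]

lemma mem_ball_of_lt {z : ℂ} {R : ℝ} (hR : 0 < R) (h : Complex.normSq z < 2 * R * z.im) :
    z ∈ Metric.ball ((R : ℂ) * I) R := by
  rw [Metric.mem_ball, Complex.dist_eq, ← sq_lt_sq₀ (norm_nonneg _) hR.le, Complex.sq_norm,
    Complex.normSq_apply]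
  rw [Complex.normSq_apply] at h
  simp only [sub_re, mul_re, ofReal_re, I_re, mul_zero, ofReal_im, I_im, mul_one, sub_self,
    sub_zero, sub_im, mul_im, add_zero]
  nlinarith

lemma ball_mono_UHP {R R' : ℝ} (hR : 0 < R) (h : R ≤ R') :
    Metric.ball ((R : ℂ) * I) R ⊆ Metric.ball ((R' : ℂ) * I) R' := by
  intro z hz
  have hz' : Complex.normSq z < 2 * R * z.im := by
    rw [Metric.mem_ball, Complex.dist_eq, ← sq_lt_sq₀ (norm_nonneg _) hR.le, Complex.sq_norm,
      Complex.normSq_apply] at hz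
    simp only [sub_re, mul_re, ofReal_re, I_re, mul_zero, ofReal_im, I_im, mul_one, sub_self,
      sub_zero, sub_im, mul_im, add_zero] at hz
    rw [Complex.normSq_apply]
    nlinarith
  have him : 0 < z.im := ball_subset_UHP R hz
  apply mem_ball_of_lt (lt_of_lt_of_le hR h)
  have : 2 * R * z.im ≤ 2 * R' * z.im := by
    apply mul_le_mul_of_nonneg_right _ him.le
    linarith
  linarith

/-- Two primitives of the same function on `UHP` differ by a constant. -/
lemma eqOn_of_hasDerivAt_UHP {G₁ G₂ : ℂ → ℂ} {h : ℂ → ℂ}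
    (h₁ : ∀ z ∈ UHP, HasDerivAt G₁ (h z) z) (h₂ : ∀ z ∈ UHP, HasDerivAt G₂ (h z) z)
    {z w : ℂ} (hz : z ∈ UHP) (hw : w ∈ UHP) : G₁ z - G₂ z = G₁ w - G₂ w := by
  have hd : ∀ x ∈ UHP, HasDerivAt (fun x => G₁ x - G₂ x) (h x - h x) x := fun x hx =>
    (h₁ x hx).sub (h₂ x hx)
  exact isOpen_UHP.is_const_of_deriv_eq_zero (f := fun x => G₁ x - G₂ x) isPreconnected_UHP
    (fun x hx => (hd x hx).differentiableAt.differentiableWithinAt)
    (fun x hx => by rw [(hd x hx).deriv, sub_self]; rfl) hz hw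

/-- A function with zero derivative on `UHP` is constant there. -/
lemma const_of_hasDerivAt_zero_UHP {G : ℂ → ℂ}
    (h₁ : ∀ z ∈ UHP, HasDerivAt G 0 z) {z w : ℂ} (hz : z ∈ UHP) (hw : w ∈ UHP) : G z = G w :=
  isOpen_UHP.is_const_of_deriv_eq_zero isPreconnected_UHP
    (fun x hx => (h₁ x hx).differentiableAt.differentiableWithinAt)
    (fun x hx => (h₁ x hx).deriv) hz hw

/-- Holomorphic functions on the upper half plane have primitives. -/
theorem exists_primitive_UHP {h : ℂ → ℂ} (hh : DifferentiableOn ℂ h UHP) :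
    ∃ G : ℂ → ℂ, ∀ z ∈ UHP, HasDerivAt G (h z) z := by
  -- primitives on the balls `B n = ball ((n+1) I) (n+1)`, normalised at `I`
  have hex : ∀ n : ℕ, ∃ g : ℂ → ℂ, g I = 0 ∧
      ∀ z ∈ Metric.ball (((n + 1 : ℕ) : ℝ) * I : ℂ) ((n + 1 : ℕ) : ℝ), HasDerivAt g (h z) z := by
    intro n
    have hd : DifferentiableOn ℂ h (Metric.ball (((n + 1 : ℕ) : ℝ) * I : ℂ) ((n + 1 : ℕ) : ℝ)) :=
      hh.mono (ball_subset_UHP _)
    exact hd.isExactOn_ball.with_val_at I 0
  choose g hgI hg using hex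
  have hR : ∀ n : ℕ, (0 : ℝ) < ((n + 1 : ℕ) : ℝ) := fun n => by positivity
  have hIn : ∀ n : ℕ, I ∈ Metric.ball (((n + 1 : ℕ) : ℝ) * I : ℂ) ((n + 1 : ℕ) : ℝ) := by
    intro n
    apply mem_ball_of_lt (hR n)
    have : (1 : ℝ) ≤ ((n + 1 : ℕ) : ℝ) := by exact_mod_cast Nat.le_add_left 1 n
    simp
    linarith
  -- consistency
  have hcons : ∀ n n' : ℕ, n ≤ n' →
      ∀ z ∈ Metric.ball (((n + 1 : ℕ) : ℝ) * I : ℂ) ((n + 1 : ℕ) : ℝ), g n z = g n' z := by
    intro n n' hnn' z hz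
    have hsub : Metric.ball (((n + 1 : ℕ) : ℝ) * I : ℂ) ((n + 1 : ℕ) : ℝ) ⊆
        Metric.ball (((n' + 1 : ℕ) : ℝ) * I : ℂ) ((n' + 1 : ℕ) : ℝ) :=
      ball_mono_UHP (hR n) (by exact_mod_cast Nat.succ_le_succ hnn')
    have hd : ∀ x ∈ Metric.ball (((n + 1 : ℕ) : ℝ) * I : ℂ) ((n + 1 : ℕ) : ℝ),
        HasDerivAt (fun x => g n x - g n' x) (h x - h x) x := fun x hx =>
      (hg n x hx).sub (hg n' x (hsub hx))
    have := Metric.isOpen_ball.is_const_of_deriv_eq_zero (f := fun x => g n x - g n' x)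
      (convex_ball (((n + 1 : ℕ) : ℝ) * I : ℂ) ((n + 1 : ℕ) : ℝ)).isPreconnected
      (fun x hx => (hd x hx).differentiableAt.differentiableWithinAt)
      (fun x hx => by rw [(hd x hx).deriv, sub_self]; rfl) hz (hIn n)
    simp only [hgI, sub_self] at this
    exact sub_eq_zero.mp this
  -- the index function
  let idx : ℂ → ℕ := fun z => ⌈Complex.normSq z / (2 * z.im)⌉₊
  have hidx : ∀ z ∈ UHP, z ∈ Metric.ball (((idx z + 1 : ℕ) : ℝ) * I : ℂ) ((idx z + 1 : ℕ) : ℝ) := by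
    intro z hz
    apply mem_ball_of_lt (hR _)
    have h1 : Complex.normSq z / (2 * z.im) ≤ (idx z : ℝ) := Nat.le_ceil _
    have h2 : (0 : ℝ) < 2 * z.im := by have := mem_UHP.mp hz; linarith
    have h3 : Complex.normSq z ≤ (idx z : ℝ) * (2 * z.im) := (div_le_iff₀ h2).mp h1
    push_cast
    nlinarith [mem_UHP.mp hz]
  refine ⟨fun z => g (idx z) z, fun z₀ hz₀ => ?_⟩
  have hev : (fun z => g (idx z) z) =ᶠ[𝓝 z₀] g (idx z₀) := by
    have hnhds : Metric.ball (((idx z₀ + 1 : ℕ) : ℝ) * I : ℂ) ((idx z₀ + 1 : ℕ) : ℝ) ∈ 𝓝 z₀ :=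
      Metric.isOpen_ball.mem_nhds (hidx z₀ hz₀)
    filter_upwards [hnhds] with z hz
    have hzU : z ∈ UHP := ball_subset_UHP _ hz
    rcases le_total (idx z) (idx z₀) with hle | hle
    · exact hcons _ _ hle z (hidx z hzU)
    · exact (hcons _ _ hle z hz).symm
  exact (hg (idx z₀) z₀ (hidx z₀ hz₀)).congr_of_eventuallyEq hev

end Fermat.Agent.S22
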